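import Fermat.Agent.RT.Assembly.LevelChar
import Fermat.Agent.RT.Assembly.Diamond
import Fermat.Agent.RT.Glue.Main

/-!
# An element killed at the points trivial on a subgroup has matrices in `π` along the level character
-/

set_option autoImplicit false
set_option linter.style.haveILetI false

noncomputable section

namespace Fermat.Agent.RT.Assembly

open IsLocalRing MvPowerSeries

/-- Units are determined by their reductions modulo `v` and `L / v`. -/
theorem unit_ext_crt {L v : ℕ} (hv : v ∣ L) (hcop : v.Coprime (L / v)) {u w : (ZMod L)ˣ}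
    (h1 : ((u : ZMod L).cast : ZMod (L / v)) = ((w : ZMod L).cast : ZMod (L / v)))
    (h2 : ZMod.unitsMap hv u = ZMod.unitsMap hv w) : u = w := by
  set c : ZMod L ≃+* ZMod v × ZMod (L / v) :=
    (ZMod.ringEquivCongr (Nat.mul_div_cancel' hv).symm).trans (ZMod.chineseRemainder hcop)
  have e1 : ∀ x : ZMod L, (ZMod.castHom (Nat.div_dvd_of_dvd hv) (ZMod (L / v))) x = (c x).2 :=
    fun x => RingHom.congr_fun (Subsingleton.elim (ZMod.castHom (Nat.div_dvd_of_dvd hv) _)
      ((RingHom.snd _ _).comp c.toRingHom)) x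
  have e2 : ∀ x : ZMod L, (ZMod.castHom hv (ZMod v)) x = (c x).1 :=
    fun x => RingHom.congr_fun (Subsingleton.elim (ZMod.castHom hv _)
      ((RingHom.fst _ _).comp c.toRingHom)) x
  refine Units.ext (c.injective (Prod.ext ?_ ?_))
  · rw [← e2, ← e2]
    have := congrArg Units.val h2
    rw [ZMod.unitsMap_val, ZMod.unitsMap_val] at this
    exact this
  · rw [← e1, ← e1]
    exact h1

open scoped Classical

variable {V : Type} [Fintype V] {r p n : ℕ}

/-- The subgroup of a level at one place. -/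
def placeSub (v : V) : Subgroup (LevelGroup V p r n) :=
  Subgroup.zpowers (levelGen p n (Sum.inl v))

/-- The units congruent to one away from a place go to the subgroup of that place. -/
theorem psi_mem_placeSub [Fact p.Prime] {L : ℕ} {ψ : (ZMod L)ˣ →* LevelGroup V p r n}
    (hh : (halfInvExp (LevelGroup V p r n)).Coprime p) {v : V} {w : ℕ} [Fact w.Prime]
    (hw : w ∣ L) (hcop : w.Coprime (L / w)) {a : (ZMod w)ˣ} (ha : orderOf a = w - 1)
    (hgen : ∀ u : (ZMod L)ˣ, ((u : ZMod L).cast : ZMod (L / w)) = 1 → ZMod.unitsMap hw u = a →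
      ψ u ^ halfInvExp (LevelGroup V p r n) = levelGen p n (Sum.inl v))
    {u : (ZMod L)ˣ} (hu : ((u : ZMod L).cast : ZMod (L / w)) = 1) : ψ u ∈ placeSub v := by
  obtain ⟨u₀, hu₀, hu₀a⟩ := exists_unit_crt hw hcop a
  have htop : Subgroup.zpowers a = ⊤ := Subgroup.eq_top_of_card_eq _ (by
    rw [Nat.card_zpowers, ha, Nat.card_eq_fintype_card, ZMod.card_units])
  obtain ⟨k, hk⟩ := (Subgroup.mem_zpowers_iff).mp
    (show ZMod.unitsMap hw u ∈ Subgroup.zpowers a by rw [htop]; trivial)
  have he : u = u₀ ^ k := by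
    refine unit_ext_crt hw hcop ?_ (by rw [map_zpow, hu₀a, hk])
    have h1 : ∀ y : (ZMod L)ˣ, ((y : ZMod L).cast : ZMod (L / w)) =
        ((ZMod.unitsMap (Nat.div_dvd_of_dvd hw) y : (ZMod (L / w))ˣ) : ZMod (L / w)) := fun y =>
      (ZMod.unitsMap_val (Nat.div_dvd_of_dvd hw) y).symm
    have h2 : ZMod.unitsMap (Nat.div_dvd_of_dvd hw) u₀ = 1 := Units.ext (by
      rw [← h1, hu₀, Units.val_one])
    rw [hu, h1, map_zpow, h2, one_zpow, Units.val_one]
  rw [he, map_zpow]
  refine Subgroup.zpow_mem _ ?_ _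
  have hord : (halfInvExp (LevelGroup V p r n)).Coprime (orderOf (ψ u₀)) := by
    obtain ⟨j, hj⟩ := isPGroup_levelGroup (V := V) (r := r) p n (ψ u₀)
    obtain ⟨i, -, hi⟩ := (Nat.dvd_prime_pow (Fact.out : p.Prime)).mp (orderOf_dvd_of_pow_eq_one hj)
    rw [hi]
    exact hh.pow_right i
  obtain ⟨m, hm⟩ := exists_pow_eq_self_of_coprime hord
  rw [hgen u₀ hu₀ hu₀a] at hm
  exact hm ▸ Subgroup.pow_mem _ (Subgroup.mem_zpowers _) m

variable {O : Type} [CommRing O] [IsDomain O] [IsDiscreteValuationRing O]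
  [IsAdicComplete (maximalIdeal O) O] [Finite (ResidueField O)] [CharZero O] [Fact p.Prime]
  {L : ℕ} {ψ : (ZMod L)ˣ →* LevelGroup V p r n} {S : Finset ℕ}
  {abar : ℕ → ResidueField O} (H : HeckeModule L ψ S abar)

/-- The matrices of a Hecke module along the level character. -/
def levelRep {ζ : O} (hζ : ζ ^ p = 1) :
    H.algebra →ₐ[O] Matrix (Fin H.d) (Fin H.d) (MvPowerSeries (Fin r) O ⧸ levelIdeal O p n) :=
  DiaBasis.rep (⟨H.basis, H.basis_bijective⟩ : DiaBasis H.dia H.d) (levelChar hζ n)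
    fun a ha δ => by
      induction ha using Algebra.adjoin_induction with
      | mem a ha =>
        rcases ha with ⟨ε, rfl⟩ | ⟨ℓ, -, rfl⟩
        · rw [← map_mul, ← map_mul, mul_comm]
        · exact H.dia_comm ℓ δ
      | algebraMap c => exact Algebra.commutes c _
      | add a b _ _ h1 h2 => rw [add_mul, mul_add, h1, h2]
      | mul a b _ _ h1 h2 => rw [mul_assoc, h2, ← mul_assoc, h1, mul_assoc]

omit [IsAdicComplete (maximalIdeal O) O] [Finite (ResidueField O)] [CharZero O] in
theorem levelRep_dia {ζ : O} (hζ : ζ ^ p = 1) (δ : LevelGroup V p r n) :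
    levelRep H hζ (Glue.diaA H δ) = levelChar hζ n δ • 1 :=
  DiaBasis.mat_dia _ _ δ

/-- An element vanishing at the points trivial on `placeSub v` is killed by its norm, hence has
matrices in `π`. -/
theorem levelRep_mem_span (hp : (p : O) ∈ maximalIdeal O) [IsLocalRing H.algebra] {v : V}
    {x : H.algebra}
    (hx : ∀ θ : H.algebra →+* ℂ,
      (∀ δ ∈ placeSub v, θ (Glue.diaA H δ) = 1) → θ x = 0)
    {ζ : O} (hζ : ζ ^ p = 1) {π : O} (hπ : Irreducible π) (hζπ : ζ - 1 ∈ maximalIdeal O)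
    (i j : Fin H.d) : levelRep H hζ x i j ∈
      Ideal.span {algebraMap O (MvPowerSeries (Fin r) O ⧸ levelIdeal O p n) π} := by
  classical
  have : NeZero p := ⟨(Fact.out : p.Prime).ne_zero⟩
  have := Fintype.ofFinite (placeSub (p := p) (r := r) (n := n) v)
  have hN : (∑ k : placeSub (p := p) (r := r) (n := n) v, Glue.diaA H k) * x = 0 := by
    refine Glue.eq_zero_of_forall_complex hp fun θ => ?_
    rw [map_mul]
    by_cases htriv : ∀ δ ∈ placeSub v, θ (Glue.diaA H δ) = 1
    · rw [hx θ htriv, mul_zero]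
    · push Not at htriv
      obtain ⟨δ₀, hδ₀, hne⟩ := htriv
      set s := θ (∑ k : placeSub (p := p) (r := r) (n := n) v, Glue.diaA H k) with hs
      have hshift : θ (Glue.diaA H δ₀) * s = s := by
        rw [hs, map_sum, Finset.mul_sum]
        refine Fintype.sum_equiv (Equiv.mulLeft ⟨δ₀, hδ₀⟩) _ _ fun k => ?_
        rw [← map_mul, ← map_mul]
        rfl
      have : (θ (Glue.diaA H δ₀) - 1) * s = 0 := by rw [sub_mul, one_mul, hshift, sub_self]
      rw [(mul_eq_zero.mp this).resolve_left (sub_ne_zero.mpr hne), zero_mul]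
  refine DiaBasis.mat_mem_of_mul_norm _ (levelChar hζ n) (placeSub v) ?_ _ (fun δ k hk => ?_) i j
  · have h := congrArg Subtype.val hN
    rw [MulMemClass.coe_mul, AddSubmonoidClass.coe_finsetSum] at h
    exact h
  · obtain ⟨m, rfl⟩ := (Subgroup.mem_zpowers_iff).mp hk
    rw [Ideal.mem_span_singleton, map_mul, ← mul_sub_one]
    refine Dvd.dvd.mul_left ?_ _
    obtain ⟨c, hc⟩ : ∃ c : ℕ, levelGen p n (Sum.inl v) ^ m =
        (Multiplicative.ofAdd ((Pi.single v (c : ZMod p) : V → ZMod p), 0) :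
          LevelGroup V p r n) := by
      refine ⟨((m : ZMod p)).val, ?_⟩
      apply Multiplicative.toAdd.injective
      rw [toAdd_zpow, levelGen, toAdd_ofAdd, toAdd_ofAdd, Prod.smul_mk, smul_zero, ← Pi.single_smul,
        zsmul_one, ZMod.natCast_zmod_val]
    rw [hc, levelChar_apply_left, ← map_one (algebraMap O (MvPowerSeries (Fin r) O ⧸ levelIdeal O p n)),
      ← map_sub]
    refine map_dvd _ ?_
    rw [← Ideal.mem_span_singleton, ← hπ.maximalIdeal_eq, ← Ideal.Quotient.eq_zero_iff_mem,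
      map_sub, map_pow, map_one]
    have h1 : Ideal.Quotient.mk (maximalIdeal O) ζ = 1 := by
      rwa [← map_one (Ideal.Quotient.mk (maximalIdeal O)), Ideal.Quotient.eq]
    rw [h1, one_pow, sub_self]

end Fermat.Agent.RT.Assembly
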