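import Fermat.Agent.RT.Assembly.Normalise
import Fermat.Agent.RT.Assembly.Annihilate

/-!
# Matrices of an isomorphic representation, and the standard generators along the level character
-/

set_option autoImplicit false
set_option linter.style.haveILetI false

noncomputable section

namespace Fermat.Agent.RT.Assembly

open IsLocalRing Fermat.Agent.Deform Fermat.Agent.Arith MvPowerSeries
open scoped Classical

variable {A : Type} [CommRing A] [IsLocalRing A]

theorem det_toRep {r : Gal →* M2 A} (hc : IsCont r) (σ : Gal) :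
    LinearMap.det ((toRep r hc).ρ σ) = (r σ).det :=
  LinearMap.det_toLin' (r σ)

/-- An element acting trivially has trivial matrices in an isomorphic representation. -/
theorem matrix_eq_one_of_isEquiv {ρ : GaloisRepAdic A} {r : Gal →* M2 A} {hc : IsCont r}
    (h : ρ.IsEquiv (toRep r hc)) {σ : Gal} (hσ : ρ.ρ σ = 1) : r σ = 1 := by
  obtain ⟨e⟩ := h
  refine (Matrix.toLinAlgEquiv' : M2 A ≃ₐ[A] _).injective (LinearMap.ext fun y => ?_)
  rw [map_one]
  obtain ⟨x, rfl⟩ := e.toLinearEquiv.surjective y
  exact (e.map_apply σ x).symm.trans (by rw [hσ]; rfl)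

/-- The determinant at an element acting on all `p`-power roots of unity by `q`. -/
theorem det_eq_natCast [IsHausdorff (maximalIdeal A) A] {p : ℕ} {ρ : GaloisRepAdic A}
    (hdet : ρ.DetIsCyclotomic p) {σ : Gal} {q : ℕ}
    (hσ : ∀ (n : ℕ) (μ : QBar), μ ^ p ^ n = 1 → σ μ = μ ^ q) :
    LinearMap.det (ρ.ρ σ) = (q : A) := by
  refine sub_eq_zero.mp (IsHausdorff.haus' (I := maximalIdeal A) _ fun n => ?_)
  rw [SModEq.zero, smul_eq_mul, Ideal.mul_top]
  refine (Ideal.span_singleton_le_iff_mem _).mpr ?_ (hdet.2 n σ q (hσ n))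
  push_cast
  exact Ideal.pow_mem_pow hdet.1 n

theorem trace_eq_of_charpoly {X : M2 A} {t d : A}
    (h : X.charpoly = Polynomial.X ^ 2 - Polynomial.C t * Polynomial.X + Polynomial.C d) :
    X.trace = t := by
  rw [Matrix.charpoly_fin_two] at h
  have h1 := congrArg (fun f => Polynomial.coeff f 1) h
  simpa [Polynomial.coeff_X_pow] using h1

theorem trace_eq_add_of_charpoly {X : M2 A} {a b : A}
    (h : X.charpoly = (Polynomial.X - Polynomial.C a) * (Polynomial.X - Polynomial.C b)) :
    X.trace = a + b := by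
  refine trace_eq_of_charpoly (d := a * b) (h.trans ?_)
  rw [map_add, map_mul]
  ring

variable {V : Type} [Fintype V] {O : Type} [CommRing O] {p r : ℕ} [NeZero p]

theorem levelChar_gen_inl {ζ : O} (hζ : ζ ^ p = 1) (n : ℕ) (v : V) :
    levelChar (r := r) hζ n (levelGen p n (Sum.inl v)) = algebraMap O _ ζ := by
  rw [levelGen, levelChar_apply_left]
  congr 1
  conv_rhs => rw [← pow_one ζ]
  exact pow_eq_of_mod_eq hζ (by rw [ZMod.val_one_eq_one_mod, Nat.mod_mod])

theorem levelChar_gen_inr {ζ : O} (hζ : ζ ^ p = 1) (n : ℕ) (i : Fin r) :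
    levelChar (V := V) hζ n (levelGen p n (Sum.inr i)) =
      1 + Ideal.Quotient.mk (levelIdeal O p n) (X i) := by
  rw [levelGen, levelChar_apply_right]
  conv_rhs => rw [← pow_one (1 + Ideal.Quotient.mk (levelIdeal O p n) (X i))]
  exact pow_eq_of_mod_eq (one_add_mk_pow n i) (by rw [ZMod.val_one_eq_one_mod, Nat.mod_mod])

end Fermat.Agent.RT.Assembly
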