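import Fermat.Agent.RT.Assembly.Build
import Fermat.Agent.RT.GammaH.Module
import Fermat.Agent.Newforms.LevelRaiseEigen

/-!
# The support statement: some auxiliary level without `v₀` is congruent

Levels of bounded rank exist at every depth, so if no level `L / v₀` were congruent the series
`frobRel` would be small at a monomial where its coefficient is `1`.
-/

set_option autoImplicit false
set_option linter.style.haveILetI false

noncomputable section

namespace Fermat.Agent.RT.Assembly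

open IsLocalRing MvPowerSeries Fermat.Agent.Deform Fermat.Agent.RT.Germ
open Fermat.Agent.GaloisReps (HeckeGaloisModel)
open scoped Classical

/-- Congruent levels go up. -/
theorem isCongruentLevel_of_dvd {k : Type} [Field k] {S T : Finset ℕ} {abar : ℕ → k} {M N : ℕ}
    [NeZero N] (h : IsCongruentLevel S abar M) (hMN : M ∣ N) (hST : S ⊆ T)
    (hT : ∀ q : ℕ, q.Prime → q ∣ N → q ∈ T) : IsCongruentLevel T abar N := by
  obtain ⟨g, hg, φ, hφ⟩ := h
  obtain ⟨f, hf, hfg⟩ := Newforms.exists_eigenform_of_dvd hMN hg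
  exact ⟨f, hf, φ, fun ℓ hℓ hℓT a ha => hφ ℓ hℓ (fun h => hℓT (hST h)) a
    (ha.trans (hfg ℓ hℓ (Or.inr fun h => hℓT (hT ℓ hℓ h))))⟩

variable {O : Type} [CommRing O] [IsDomain O] [IsDiscreteValuationRing O]
  [IsAdicComplete (maximalIdeal O) O] [Finite (ResidueField O)] [CharZero O]
  {p : ℕ} [Fact p.Prime] [CharP (ResidueField O) p]

/-- The local Hecke modules satisfy the condition at `p`. -/
def CondAtPInput (p : ℕ) [Fact p.Prime] (ρbar : ResidualGaloisRep (ResidueField O))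
    (abar : ℕ → ResidueField O) (D : ∀ (M : ℕ) [NeZero M], HeckeGaloisModel M p) (C : CondAt O)
    (M₀ : ℕ) (S : Finset ℕ) : Prop :=
  ∀ (L : ℕ) [NeZero L] (Δ : Type) [CommGroup Δ] [Finite Δ] (ψ : (ZMod L)ˣ →* Δ) (T : Finset ℕ)
    (H : HeckeModule L ψ T abar) [IsLocalRing H.algebra],
    IsPGroup p Δ → Squarefree L → (∀ q : ℕ, q.Prime → q ∣ L → q ∣ M₀ ∨ q ∉ S) →
    ∀ (hS : ∀ q : ℕ, q.Prime → q ∣ L → q ∈ T)
      (pt : ∀ θ : H.algebra →ₐ[O] Glue.KBar O, Glue.Point (p := p) H hS θ.toRingHom)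
      (G : Glue.Glued D pt),
      G.rep.residual.IsEquiv (ρbar.baseChangeAlong (ResidueField.map (algebraMap O H.algebra))) →
        C G.rep

/-- The ranks at the auxiliary levels are bounded. -/
def RankBoundInput (p : ℕ) (W : Rigid O) (abar : ℕ → ResidueField O) (M₀ : ℕ) (S : Finset ℕ)
    (m : ℕ) : Prop :=
  ∃ B : ℕ, ∀ (n : ℕ) (qv : Fin m → ℕ), IsTWSet p W.rb S n qv →
    ∀ [NeZero (M₀ * ∏ i, qv i)],
      GammaH.heckeRank O (M₀ * ∏ i, qv i) (S ∪ Finset.univ.image qv) abar ≤ B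

theorem squarefree_mul_prod {W : Rigid O} {M₀ n m : ℕ} {S : Finset ℕ} {qv : Fin m → ℕ}
    (hM₀ : Squarefree M₀) (hS : ∀ q : ℕ, q.Prime → q ∣ M₀ → q ∈ S)
    (hQ : IsTWSet p W.rb S n qv) : Squarefree (M₀ * ∏ i, qv i) := by
  refine (Nat.squarefree_mul (Nat.Coprime.prod_right fun i _ => ?_)).mpr ⟨hM₀, ?_⟩
  · exact ((hQ.prime i).coprime_iff_not_dvd.mpr fun h =>
      hQ.notMem i (hS _ (hQ.prime i) h)).symm
  · refine Finset.squarefree_prod_of_pairwise_isCoprime (fun i _ j _ hij => ?_)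
      fun i _ => (hQ.prime i).squarefree
    exact Nat.coprime_iff_isRelPrime.mp
      ((Nat.coprime_primes (hQ.prime i) (hQ.prime j)).mpr fun h => hij (hQ.injective h))

theorem prime_dvd_mul_prod {W : Rigid O} {M₀ n m : ℕ} {S : Finset ℕ} {qv : Fin m → ℕ}
    (hQ : IsTWSet p W.rb S n qv) {q : ℕ} (hq : q.Prime) (h : q ∣ M₀ * ∏ i, qv i) :
    q ∣ M₀ ∨ ∃ i, qv i = q := by
  refine (hq.dvd_mul.mp h).imp id fun h => ?_
  obtain ⟨i, -, hi⟩ := (Prime.dvd_finsetProd_iff hq.prime _).mp h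
  exact ⟨i, ((Nat.prime_dvd_prime_iff_eq hq (hQ.prime i)).mp hi).symm⟩

theorem residue_zeta_eq_one {ζ : O} (hζ : ζ ^ p = 1) : ζ - 1 ∈ maximalIdeal O := by
  rw [← residue_eq_zero_iff]
  refine eq_zero_of_pow_eq_zero (n := p) ?_
  rw [map_sub, map_one, sub_pow_char, ← map_pow, hζ, map_one, one_pow, sub_self]

set_option maxHeartbeats 800000 in
/-- **The support statement.** -/
theorem exists_congruentLevel_div {K : Type*} [NontriviallyNormedField K] [IsUltrametricDist K]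
    [CompleteSpace K] [IsAlgClosed K] (φ : O →+* ball1 K) (hφinj : Function.Injective φ)
    (hφ : ∀ c ∈ maximalIdeal O, ‖(φ c : K)‖ < 1) (hp2 : p ≠ 2) (hp : (p : O) ∈ maximalIdeal O)
    {ζ : O} (hζ : IsPrimitiveRoot ζ p) {ρbar : ResidualGaloisRep (ResidueField O)} {W : Rigid O}
    {abar : ℕ → ResidueField O} {S : Finset ℕ} {M₀ : ℕ} {V : Finset ℕ}
    (hset : PatchSetting p ρbar W abar S M₀ V)
    {D : ∀ (M : ℕ) [NeZero M], HeckeGaloisModel M p} (hM : ModelInputs p D)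
    {C : CondAt O} (hC : IsLocalCond ρbar C) (hCP : CondAtPInput p ρbar abar D C M₀ S)
    (hTW : TWSelmerInput p C W.rb M₀.primeFactors (uniPlaces p M₀ V) V S)
    (hB : ∀ m, RankBoundInput p W abar M₀ S m)
    (hEis : ∀ T : Finset ℕ, ∃ ℓ : ℕ, ℓ.Prime ∧ ℓ ∉ T ∧ abar ℓ ≠ 1 + (ℓ : ResidueField O))
    (hcong : IsCongruentLevel S abar M₀) {v₀ : ℕ} (hv₀ : v₀ ∈ V) :
    ∃ (m n : ℕ) (qv : Fin m → ℕ), IsTWSet p W.rb S n qv ∧
      IsCongruentLevel (S ∪ Finset.univ.image qv) abar ((M₀ * ∏ i, qv i) / v₀) := by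
  by_contra hcon
  simp only [not_exists, not_and] at hcon
  have hpp : p.Prime := Fact.out
  haveI : ∀ v : {v // v ∈ V}, Fact v.1.Prime := fun v => ⟨hset.V_prime _ v.2⟩
  haveI : Nonempty {v // v ∈ V} := ⟨⟨v₀, hv₀⟩⟩
  obtain ⟨m, g, hmg, hTW⟩ := hTW
  obtain ⟨B, hB⟩ := hB m
  obtain ⟨π, hπ⟩ := IsDiscreteValuationRing.exists_irreducible O
  have h2u : IsUnit (2 : O) := by
    rw [← residue_ne_zero_iff_isUnit, map_ofNat]
    exact Ring.two_ne_zero (by rw [ringChar.eq (ResidueField O) p]; exact hp2)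
  obtain ⟨c, hc⟩ := h2u.exists_right_inv
  set ζi := ζ ^ (p - 1)
  have hζi : ζ * ζi = 1 := by
    rw [mul_pow_sub_one hpp.ne_zero, hζ.pow_eq_one]
  have hζne : ζ ≠ ζi := fun h => by
    have h2 : ζ ^ 2 = 1 := by rw [pow_two]; conv_lhs => arg 2; rw [h]
                              exact hζi
    exact hp2 ((Nat.prime_dvd_prime_iff_eq hpp Nat.prime_two).mp (hζ.dvd_of_pow_eq_one 2 h2))
  have hζπ := residue_zeta_eq_one hζ.pow_eq_one
  have hlevels : ∀ n, Nonempty (PatchLevel (fun _ : {v // v ∈ V} => c * (ζ - ζi))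
      (frobRel (g := g) c ⟨v₀, hv₀⟩ v₀) π p m B n) := by
    intro n
    obtain ⟨qv, hQ, hbound⟩ := hTW n
    haveI : ∀ i, Fact (qv i).Prime := fun i => ⟨hQ.prime i⟩
    haveI : NeZero (M₀ * ∏ i, qv i) :=
      ⟨mul_ne_zero hset.squarefree.ne_zero (Finset.prod_ne_zero_iff.mpr fun i _ =>
        (hQ.prime i).ne_zero)⟩
    have hLsq := squarefree_mul_prod hset.squarefree hset.primes_mem hQ
    have haV : ∀ v : {v // v ∈ V}, Nonempty (PlaceData p v.1) := fun v =>
      nonempty_placeData hpp (hset.V_mod _ v.2)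
    let aV := fun v => (haV v).some
    choose σQ aQ hσQ hσQ' haQ using fun i =>
      exists_inertia_generator (hQ.prime i) (CFT.Local.padicPlace_liesOverPrime (qv i))
    have hprime : ∀ x : {v // v ∈ V} ⊕ Fin m, (Sum.elim Subtype.val qv x).Prime := fun x =>
      match x with
      | .inl v => hset.V_prime _ v.2
      | .inr i => hQ.prime i
    have hdvd : ∀ x : {v // v ∈ V} ⊕ Fin m, Sum.elim Subtype.val qv x ∣ M₀ * ∏ i, qv i := fun x =>
      match x with
      | .inl v => dvd_mul_of_dvd_left (hset.V_dvd _ v.2) _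
      | .inr i => dvd_mul_of_dvd_right (Finset.dvd_prod_of_mem _ (Finset.mem_univ i)) _
    have hinj : Function.Injective (Sum.elim (Subtype.val : {v // v ∈ V} → ℕ) qv) :=
      Subtype.val_injective.sumElim hQ.injective fun v i h =>
        hQ.notMem i (h ▸ hset.primes_mem _ (hset.V_prime _ v.2) (hset.V_dvd _ v.2))
    let a : ∀ x : {v // v ∈ V} ⊕ Fin m, (ZMod (Sum.elim Subtype.val qv x))ˣ := fun x =>
      match x with
      | .inl v => (aV v).a
      | .inr i => aQ i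
    obtain ⟨ψ, hψ, hψgen, hψ1⟩ := exists_levelPsi (V := {v // v ∈ V}) hp2 n hLsq Subtype.val qv
      hprime hdvd hinj (fun v => hset.V_mod _ v.2)
      (fun i => (pow_dvd_pow p n.le_succ).trans (hQ.dvd i)) a (fun x =>
        match x with
        | .inl v => (aV v).a_order
        | .inr i => haQ i)
    have hSL : ∀ v : ℕ, v.Prime → v ∣ M₀ * ∏ i, qv i → v ∈ S ∪ Finset.univ.image qv :=
      fun v hv h => by
        rcases prime_dvd_mul_prod hQ hv h with h | ⟨i, rfl⟩
        · exact Finset.mem_union_left _ (hset.primes_mem v hv h)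
        · exact Finset.mem_union_right _ (Finset.mem_image.mpr ⟨i, Finset.mem_univ i, rfl⟩)
    obtain ⟨H, hH⟩ := GammaH.exists_heckeModule (abar := abar) hp2 hLsq hψ
      (isPGroup_levelGroup p n) hSL (hEis _)
    refine exists_patchLevel_of_heckeModule hp2 hp hset hM hC hζ.pow_eq_one hζi hζne hc hπ hζπ hQ
      hbound rfl (aV := aV) (fun i => CFT.Local.padicPlace_liesOverPrime (qv i)) hσQ hσQ'
      (fun v hd u hu hua => hψgen (Sum.inl v) u hu hua)
      (fun i hd u hu hua => hψgen (Sum.inr i) u hu hua)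
      (fun w hwV hwQ => hψ1 w fun x =>
        match x with
        | .inl v => fun h : v.1 = w => hwV (h ▸ v.2)
        | .inr i => hwQ i)
      H ?_ ?_ (fun {_} hS pt G he => ?_) ⟨v₀, hv₀⟩ (hcon m n qv hQ)
    · rw [hH, GammaH.heckeRank_pos_iff hLsq hSL (hEis _)]
      exact isCongruentLevel_of_dvd hcong (dvd_mul_right _ _) Finset.subset_union_left hSL
    · rw [hH]
      exact hB n qv hQ
    · exact hCP _ _ ψ _ H (isPGroup_levelGroup p n) hLsq (fun q hq h =>
        (prime_dvd_mul_prod hQ hq h).imp id fun ⟨i, hi⟩ => hi ▸ hQ.notMem i) hS pt G he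
  -- the coefficient of the square
  have h2K : ‖(2 : K)‖ = 1 := by
    have e : (φ (2 * c) : K) = (2 : K) * (φ c : K) := by
      rw [map_mul, Subring.coe_mul, map_ofNat]; rfl
    rw [hc, map_one, OneMemClass.coe_one] at e
    have e2 := congrArg norm e
    rw [norm_one, norm_mul] at e2
    have h1 : ‖(2 : K)‖ ≤ 1 := by
      have := Germ.norm_coe_le (φ 2)
      rwa [map_ofNat] at this
    have h3 := Germ.norm_coe_le (φ c)
    nlinarith [norm_nonneg (2 : K), norm_nonneg (φ c : K)]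
  have hcu : IsUnit c := IsUnit.of_mul_eq_one 2 (by rw [mul_comm]; exact hc)
  let d : Coord {v // v ∈ V} (Fin g) →₀ ℕ :=
    Finsupp.single (Sum.inl (⟨v₀, hv₀⟩, 1, 0)) 2
  have hcoef : coeff d (frobRel (O := O) (g := g) c (⟨v₀, hv₀⟩ : {v // v ∈ V}) v₀) = 1 := by
    rw [frobRel, map_sub, map_add, coeff_X_pow, if_pos rfl, MvPowerSeries.coeff_C,
      if_neg (by simp [d]), show (X (Sum.inl (⟨v₀, hv₀⟩, 1, 1)) : MvPowerSeries
        (Coord {v // v ∈ V} (Fin g)) O) * X (Sum.inl (⟨v₀, hv₀⟩, 1, 2)) =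
        monomial (Finsupp.single (Sum.inl (⟨v₀, hv₀⟩, 1, 1)) 1 +
          Finsupp.single (Sum.inl (⟨v₀, hv₀⟩, 1, 2)) 1) 1 by
        rw [X, X, MvPowerSeries.monomial_mul_monomial, one_mul],
      MvPowerSeries.coeff_monomial, if_neg, add_zero, sub_zero]
    intro h
    have := DFunLike.congr_fun h (Sum.inl ((⟨v₀, hv₀⟩ : {v // v ∈ V}), (1 : Fin 2), (0 : Fin 3)))
    simp [d] at this
  have hmem := coeff_mem_maximalIdeal_of_patchLevels φ hφinj hφ h2K
    (δ := fun _ : {v // v ∈ V} => c * (ζ - ζi))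
    (fun _ => mul_ne_zero hcu.ne_zero (sub_ne_zero.mpr hζne))
    (fun _ => Ideal.mul_mem_left _ _ (by
      have h1 : ζi - 1 ∈ maximalIdeal O := residue_zeta_eq_one (p := p) (by
        rw [← pow_mul, mul_comm, pow_mul, hζ.pow_eq_one, one_pow])
      simpa using sub_mem hζπ h1))
    hpp hp (by rw [Nat.card_eq_fintype_card, Fintype.card_coe]; exact hmg) hπ hlevels (d := d)
    (fun v l => by simp [d])
  rw [hcoef] at hmem
  exact (maximalIdeal.isMaximal O).ne_top ((Ideal.eq_top_iff_one _).mpr hmem)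

end Fermat.Agent.RT.Assembly
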