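import Fermat.Agent.RT.Assembly.Forms
import Fermat.Agent.NewformLocal.Assembly
import Fermat.Agent.NewformLocal.NotEisenstein
import Fermat.Agent.NewformLocal.Oldness
import Fermat.Agent.Newforms.LevelRaiseEigen

/-!
# A residual system at a prime exactly dividing the level of a congruent newform
-/

set_option autoImplicit false

noncomputable section

open Polynomial CongruenceSubgroup ModularFormClass
open Fermat.Agent.NewformLocal (UnipotentAt ToricSquareAt toricOp)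

namespace Fermat.Agent.RT.Assembly

local notation "Q̄" => AlgebraicClosure ℚ
local notation "GQ" => AlgebraicClosure ℚ ≃ₐ[ℚ] AlgebraicClosure ℚ

variable {p : ℕ} [Fact p.Prime] {k : Type} [Field k] [CharP k p]

set_option maxHeartbeats 800000 in
/-- At a prime `q ∥ M` of the level of a congruent newform the squared trace of a Frobenius
element is `(q + 1) ^ 2`. -/
theorem trace_sq_of_special_gen {S : Finset ℕ} {abar : ℕ → k} {ρbar : ResidualGaloisRep k}
    (hbar : ∀ ℓ : ℕ, ℓ.Prime → ℓ ∉ S → ∀ A : ValuationSubring Q̄, A.LiesOverPrime ℓ →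
      ∀ τ : GQ, A.IsFrobeniusAt τ ℓ →
        LinearMap.charpoly (ρbar.ρ τ) = X ^ 2 - C (abar ℓ) * X + C (ℓ : k))
    {M : ℕ} [NeZero M] {g : CuspForm (Gamma0 M) 2}
    (hg : g.IsNewform) (hcongr : IsCongruentForm S abar g) {q : ℕ} (hq : q.Prime)
    (hqp : q ≠ p) (hqM : q ∣ M) (D : GaloisReps.HeckeGaloisModel M p) (hU : UnipotentAt D q)
    (hT : ToricSquareAt D q) {A : ValuationSubring Q̄} (hA : A.LiesOverPrime q) {σ : GQ}
    (hσ : A.IsFrobeniusAt σ q) :
    LinearMap.trace k _ (ρbar.ρ σ) ^ 2 = ((q : k) + 1) ^ 2 := by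
  classical
  have : CharP (AlgebraicClosure k) p :=
    charP_of_injective_algebraMap (algebraMap k (AlgebraicClosure k)).injective p
  obtain ⟨-, φ, hφ⟩ := hcongr
  -- the eigen character with values in the algebraic integers
  obtain ⟨θ₀, hθ₀⟩ := GaloisReps.exists_eigenform_character hg.1
  have hint : ∀ t, ConductorLevel.eigenChar hg.1 (∅ : Set ℕ) t ∈ integralClosure ℤ ℂ := fun t =>
    ConductorLevel.eigenChar_range_le hg.1 (integralClosure ℤ ℂ)
      (fun ℓ hℓ _ => hθ₀ ℓ hℓ ▸ (θ₀ (HeckeDuality.heckeOp M 2 ℓ hℓ)).2) ⟨t, rfl⟩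
  let θI : GaloisReps.FullHecke M →+* integralClosure ℤ ℂ :=
    (ConductorLevel.eigenChar hg.1 (∅ : Set ℕ)).codRestrict (integralClosure ℤ ℂ) hint
  have : Module.Finite ℤ (GaloisReps.FullHecke M) := IntegralStructure.heckeAlgebra_finite M 2 ∅
  have : Module.Finite ℤ θI.range :=
    Module.Finite.of_surjective θI.rangeRestrict.toIntAlgHom.toLinearMap
      θI.rangeRestrict_surjective
  obtain ⟨O', i1, i2, i3, i4, i5, hpO, θA, ψ, hψ⟩ :=
    GaloisReps.exists_lift_char (p := p) (A := θI.range) (φ.comp θI.range.subtype)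
  have hθA : Function.Injective θA := by
    rw [RingHom.injective_iff_ker_eq_bot]
    have := RingHom.ker_isPrime θA
    refine Ideal.eq_bot_of_comap_eq_bot (R := ℤ) ?_
    rw [eq_bot_iff]
    intro n hn
    rw [Ideal.mem_comap, RingHom.mem_ker, eq_intCast, map_intCast, Int.cast_eq_zero] at hn
    exact hn
  let θ : GaloisReps.FullHecke M →+* O' := θA.comp θI.rangeRestrict
  obtain ⟨ι⟩ := GaloisReps.exists_padicHom O' hpO
  -- the residual representation of the newform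
  let : Algebra (IsLocalRing.ResidueField O') (AlgebraicClosure k) := ψ.toAlgebra
  let ρO := D.rep ι θ hpO
  let ρ' := ρO.residual.baseChange (AlgebraicClosure k)
  have hch : ∀ τ : GQ, LinearMap.charpoly (ρ'.ρ τ) =
      (LinearMap.charpoly (ρO.ρ τ)).map (ψ.comp (IsLocalRing.residue O')) := fun τ => by
    show LinearMap.charpoly (((ρO.ρ τ).baseChange (IsLocalRing.ResidueField O')).baseChange
      (AlgebraicClosure k)) = _
    rw [LinearMap.charpoly_baseChange, LinearMap.charpoly_baseChange, Polynomial.map_map]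
    rfl
  have hall := charpoly_eq_of_frobenius ρ' (ρbar.baseChange (AlgebraicClosure k))
    (S ∪ insert p M.primeFactors)
    (fun ℓ hℓ hℓT B hB τ hτ => by
      simp only [Finset.mem_union, Finset.mem_insert, not_or] at hℓT
      have hℓM : ¬ ℓ ∣ M := fun h =>
        hℓT.2.2 (Nat.mem_primeFactors.mpr ⟨hℓ, h, NeZero.ne M⟩)
      have hNp : ¬ ℓ ∣ M * p := fun h => (hℓ.dvd_mul.mp h).elim hℓM fun h' =>
        hℓT.2.1 ((Nat.prime_dvd_prime_iff_eq hℓ (Fact.out : p.Prime)).mp h')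
      rw [hch, show LinearMap.charpoly (ρO.ρ τ) = _ from
        D.charpoly_eigenAction_frobenius ι θ GaloisReps.frobeniusDensity hpO hℓ hNp hB hτ]
      show _ = LinearMap.charpoly ((ρbar.ρ τ).baseChange (AlgebraicClosure k))
      rw [LinearMap.charpoly_baseChange, hbar ℓ hℓ hℓT.1 B hB τ hτ]
      have ha : ((θI (HeckeDuality.heckeOp M 2 ℓ hℓ) : integralClosure ℤ ℂ) : ℂ) = qCoeff g ℓ := by
        show ConductorLevel.eigenChar hg.1 (∅ : Set ℕ) _ = _
        rw [HeckeDuality.heckeOp, dif_neg hℓM]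
        exact ConductorLevel.eigenChar_T hg.1 hℓ hℓM _
      have e : ψ (IsLocalRing.residue O' (θ (HeckeDuality.heckeOp M 2 ℓ hℓ))) =
          algebraMap k _ ((abar ℓ)) := by
        rw [← hφ ℓ hℓ hℓT.1 _ ha]
        exact RingHom.congr_fun hψ _
      simp [e]) σ
  -- the special Frobenius element
  have hR : M / q ∣ M := Nat.div_dvd_of_dvd hqM
  have hRq : M / q * q = M := Nat.div_mul_cancel hqM
  have : NeZero (M / q) := ⟨fun h => NeZero.ne M (by rw [← hRq, h, zero_mul])⟩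
  obtain ⟨t, ht, htg⟩ := NewformLocal.exists_killsOld_ne_zero hg hR
    (Nat.div_lt_self (Nat.pos_of_ne_zero (NeZero.ne M)) hq.one_lt).ne
  obtain ⟨ℓ, hℓ, hℓT, hne⟩ := NewformLocal.exists_coeff_ne_succ hg.1 (M * p).primeFactors
  have hℓN : ¬ ℓ ∣ M * p := fun h => hℓT (Nat.mem_primeFactors.mpr
    ⟨hℓ, h, mul_ne_zero (NeZero.ne M) (Fact.out : p.Prime).ne_zero⟩)
  have hθt : θ (toricOp t hℓ) ≠ 0 := fun h0 => by
    have h1 : θI.rangeRestrict (toricOp t hℓ) = 0 := hθA (by rw [map_zero]; exact h0)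
    have h2 : ConductorLevel.eigenChar hg.1 (∅ : Set ℕ) (toricOp t hℓ) = 0 :=
      congrArg (fun x : θI.range => ((x : integralClosure ℤ ℂ) : ℂ)) h1
    rw [toricOp, map_mul, map_sub, map_natCast, NewformLocal.eigenChar_toFull, mul_eq_zero] at h2
    have hℓM : ¬ ℓ ∣ M := fun h => hℓN (dvd_mul_of_dvd_left h p)
    have h3 : ConductorLevel.eigenChar hg.1 ∅ (HeckeDuality.heckeOp M 2 ℓ hℓ) = qCoeff g ℓ := by
      rw [HeckeDuality.heckeOp, dif_neg hℓM]
      exact ConductorLevel.eigenChar_T hg.1 hℓ hℓM _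
    rw [h3, sub_eq_zero, Nat.cast_add, Nat.cast_one] at h2
    exact h2.elim htg hne
  have key := NewformLocal.charpoly_frobenius_bad D ι θ hpO hq hqp hR hRq hU hT t ht hℓ hℓN hθt
    hA hσ
  have h4 : LinearMap.charpoly (ρ'.ρ σ) =
      LinearMap.charpoly ((ρbar.ρ σ).baseChange (AlgebraicClosure k)) := hall
  rw [hch, LinearMap.charpoly_baseChange,
    EC.FrobTrace.charpoly_of_finrank_eq_two ρbar.finrank_eq] at h4
  have h5 := congrArg (fun f => Polynomial.coeff f 1) h4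
  refine (algebraMap k (AlgebraicClosure k)).injective ?_
  rw [map_pow, map_pow, map_add, map_natCast, map_one]
  rcases key with h | h
  · rw [show LinearMap.charpoly (ρO.ρ σ) = _ from h] at h5
    simp [coeff_X_pow] at h5
    linear_combination ((algebraMap k (AlgebraicClosure k)
      (LinearMap.trace k ρbar.V (ρbar.ρ σ))) + ((q : AlgebraicClosure k) + 1)) * h5
  · rw [show LinearMap.charpoly (ρO.ρ σ) = _ from h] at h5
    simp [coeff_X_pow] at h5
    linear_combination ((algebraMap k (AlgebraicClosure k)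
      (LinearMap.trace k ρbar.V (ρbar.ρ σ))) - ((q : AlgebraicClosure k) + 1)) * h5

section Removal

variable {S : Finset ℕ} {abar : ℕ → k} {ρbar : ResidualGaloisRep k}
  (hbar : ∀ ℓ : ℕ, ℓ.Prime → ℓ ∉ S → ∀ A : ValuationSubring Q̄, A.LiesOverPrime ℓ →
    ∀ τ : GQ, A.IsFrobeniusAt τ ℓ →
      LinearMap.charpoly (ρbar.ρ τ) = X ^ 2 - C (abar ℓ) * X + C (ℓ : k))

include hbar in
/-- A congruence outside a finite set extends to all primes prime to the level and outside `S`. -/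
theorem congr_of_congr_outside_gen
    (hD : ∀ (N p : ℕ) [NeZero N] [Fact p.Prime], Nonempty (GaloisReps.HeckeGaloisModel N p))
    {M : ℕ} {g : CuspForm (Gamma0 M) 2} (hg : g.IsNormalizedEigenform)
    (φ : integralClosure ℤ ℂ →+* AlgebraicClosure k) (T : Finset ℕ)
    (hout : ∀ ℓ : ℕ, ℓ.Prime → ℓ ∉ T → ∀ a : integralClosure ℤ ℂ, (a : ℂ) = qCoeff g ℓ →
      φ a = algebraMap k _ (abar ℓ))
    {ℓ : ℕ} (hℓ : ℓ.Prime) (hℓS : ℓ ∉ S) (hℓM : ¬ ℓ ∣ M) (hℓp : ℓ ≠ p)
    {a : integralClosure ℤ ℂ} (ha : (a : ℂ) = qCoeff g ℓ) :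
    φ a = algebraMap k _ (abar ℓ) := by
  classical
  have hM : M ≠ 0 := fun h => hℓM (by rw [h]; exact dvd_zero ℓ)
  have : CharP (AlgebraicClosure k) p :=
    charP_of_injective_algebraMap (algebraMap k (AlgebraicClosure k)).injective p
  have hne : ∀ w : ℕ, w.Prime → w ≠ p → (w : AlgebraicClosure k) ≠ 0 := fun w hw hwp h => hwp
    ((Nat.prime_dvd_prime_iff_eq (Fact.out : p.Prime) hw).mp
      ((CharP.cast_eq_zero_iff _ p w).mp h)).symm
  have : NeZero M := ⟨hM⟩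
  obtain ⟨ρ, hatt, -⟩ := GaloisReps.exists_residual_eigenform hD hg (Fact.out : p.Prime) φ
  have hall := charpoly_eq_of_frobenius ρ (ρbar.baseChange (AlgebraicClosure k))
    (T ∪ S ∪ insert p M.primeFactors) (fun w hw hwT A hA τ hτ => by
      simp only [Finset.mem_union, Finset.mem_insert, not_or] at hwT
      have hwM : ¬ w ∣ M := fun h => hwT.2.2 (Nat.mem_primeFactors.mpr ⟨hw, h, hM⟩)
      obtain ⟨b, hb, hc⟩ := hatt w hw hwM (hne w hw hwT.2.1) A hA τ hτ
      rw [hc, hout w hw hwT.1.1 b hb]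
      show _ = LinearMap.charpoly ((ρbar.ρ τ).baseChange (AlgebraicClosure k))
      rw [LinearMap.charpoly_baseChange, hbar w hw hwT.1.2 A hA τ hτ]
      simp)
  obtain ⟨A, hA⟩ := Arith.exists_liesOverPrime hℓ
  obtain ⟨σ, hσ⟩ := Arith.exists_isFrobeniusAt hA hℓ
  obtain ⟨a', ha', hc⟩ := hatt ℓ hℓ hℓM (hne ℓ hℓ hℓp) A hA σ hσ
  have h := hall σ
  rw [hc, show LinearMap.charpoly ((ρbar.baseChange (AlgebraicClosure k)).ρ σ) =
    (LinearMap.charpoly (ρbar.ρ σ)).map (algebraMap k (AlgebraicClosure k)) from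
      LinearMap.charpoly_baseChange _ _, hbar ℓ hℓ hℓS A hA σ hσ] at h
  have h1 := congrArg (fun f => Polynomial.coeff f 1) h
  rw [show a = a' from Subtype.ext (ha.trans ha'.symm)]
  simpa [coeff_X_pow] using h1

include hbar in
/-- **Auxiliary primes drop out.** If `M₀ · ∏ Q` is a congruent level outside `S ∪ Q` and at each
`q ∈ Q` the squared trace of Frobenius is not `(q + 1) ^ 2`, then `M₀` is a congruent level
outside `S`. -/
theorem isCongruentLevel_of_regular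
    (hD : ∀ (N p : ℕ) [NeZero N] [Fact p.Prime], Nonempty (GaloisReps.HeckeGaloisModel N p))
    (D : ∀ (M : ℕ) [NeZero M], GaloisReps.HeckeGaloisModel M p)
    (hspec : ∀ (M : ℕ) [NeZero M] (v : ℕ), v.Prime → v ≠ p → v ∣ M → ¬ v ^ 2 ∣ M →
      UnipotentAt (D M) v ∧ ToricSquareAt (D M) v)
    {M₀ N : ℕ} {Q : Finset ℕ} [NeZero M₀] [NeZero N] (hN : Squarefree N)
    (hNQ : ∀ q : ℕ, q.Prime → q ∣ N → q ∣ M₀ ∨ q ∈ Q)
    (hS : ∀ q : ℕ, q.Prime → q ∣ M₀ → q ∈ S) (hpS : p ∈ S)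
    (hQS : ∀ q ∈ Q, q ∉ S)
    (hreg : ∀ q ∈ Q, ∀ A : ValuationSubring Q̄, A.LiesOverPrime q → ∀ σ : GQ,
      A.IsFrobeniusAt σ q → LinearMap.trace k _ (ρbar.ρ σ) ^ 2 ≠ ((q : k) + 1) ^ 2)
    (h : IsCongruentLevel (S ∪ Q) abar N) : IsCongruentLevel S abar M₀ := by
  classical
  obtain ⟨f, hf, φ, hφ⟩ := h
  obtain ⟨M', hM', g, hg, hgf⟩ := ConductorLevel.exists_newform_below (NeZero.ne N) hf
  have : NeZero M' := ⟨fun h0 => NeZero.ne N (Nat.eq_zero_of_zero_dvd (h0 ▸ hM'))⟩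
  have hout : ∀ ℓ : ℕ, ℓ.Prime → ℓ ∉ S ∪ Q → ∀ a : integralClosure ℤ ℂ,
      (a : ℂ) = qCoeff g ℓ → φ a = algebraMap k _ (abar ℓ) := fun ℓ hℓ hℓT a ha => by
    refine hφ ℓ hℓ hℓT a (ha.trans (hgf ℓ hℓ fun hd => hℓT ?_))
    exact (hNQ ℓ hℓ hd).elim (fun h => Finset.mem_union_left _ (hS ℓ hℓ h))
      (fun h => Finset.mem_union_right _ h)
  -- the level divides `M₀`
  have hQM : ∀ q ∈ Q, q.Prime → ¬ q ∣ M' := fun q hqQ hq hqM => by
    obtain ⟨A, hA⟩ := Arith.exists_liesOverPrime hq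
    obtain ⟨σ, hσ⟩ := Arith.exists_isFrobeniusAt hA hq
    have hq2 : ¬ q ^ 2 ∣ M' := fun h2 => hq.ne_one
      (Nat.isUnit_iff.mp (hN q ((pow_two q).symm ▸ h2.trans hM')))
    obtain ⟨hU, hT⟩ := hspec M' q hq (fun e => hQS q hqQ (e ▸ hpS)) hqM hq2
    exact hreg q hqQ A hA σ hσ (trace_sq_of_special_gen (S := S ∪ Q)
      (fun ℓ hℓ hℓT => hbar ℓ hℓ fun h => hℓT (Finset.mem_union_left _ h))
      hg ⟨hg.1, φ, hout⟩ hq (fun e => hQS q hqQ (e ▸ hpS)) hqM (D M') hU hT hA hσ)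
  have hdvd : M' ∣ M₀ := by
    rw [← Nat.prod_primeFactors_of_squarefree (hN.squarefree_of_dvd hM')]
    refine (Finset.prod_dvd_prod_of_subset _ _ (fun q => q) fun q hq => ?_).trans
      (Nat.prod_primeFactors_dvd M₀)
    have hq' := Nat.prime_of_mem_primeFactors hq
    have hqM := Nat.dvd_of_mem_primeFactors hq
    exact Nat.mem_primeFactors.mpr ⟨hq', (hNQ q hq' (hqM.trans hM')).resolve_right
      (fun h => hQM q h hq' hqM), NeZero.ne M₀⟩
  -- the congruence at the auxiliary primes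
  obtain ⟨f', hf', hfg⟩ := Newforms.exists_eigenform_of_dvd hdvd hg.1
  refine ⟨f', hf', φ, fun ℓ hℓ hℓS a ha => ?_⟩
  have hℓM₀ : ¬ ℓ ∣ M₀ := fun h => hℓS (hS ℓ hℓ h)
  exact congr_of_congr_outside_gen hbar hD hg.1 φ (S ∪ Q) hout hℓ hℓS
    (fun h => hℓM₀ (h.trans hdvd)) (fun e => hℓS (e ▸ hpS)) (ha.trans (hfg ℓ hℓ (Or.inr hℓM₀)))

end Removal

end Fermat.Agent.RT.Assembly
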