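import Fermat.Agent.RT.Lifting.TW.Equiv
import Fermat.Agent.RT.Assembly.Final
import Fermat.Agent.RT.Assembly.SpecialGen
import Fermat.Agent.GaloisReps.Models

/-!
# The ranks at the auxiliary levels are bounded

The Taylor–Wiles primes are auxiliary, so the localised classes of level `M₀ q₁ ⋯ q_m` are `2 ^ m`
copies of those of level `M₀`.
-/

set_option autoImplicit false

noncomputable section

namespace Fermat.Agent.RT.Assembly

open Polynomial CongruenceSubgroup IsLocalRing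
open Fermat.Agent.GaloisReps (HeckeGaloisModel)
open Fermat.Agent.NewformLocal (UnipotentAt ToricSquareAt)
open Fermat.Agent.RT.Lifting (IsAuxiliary Classes)

local notation "Q̄" => AlgebraicClosure ℚ
local notation "GQ" => AlgebraicClosure ℚ ≃ₐ[ℚ] AlgebraicClosure ℚ

variable {O : Type} [CommRing O] [IsDomain O] [IsDiscreteValuationRing O]
  {p : ℕ} [Fact p.Prime] [CharP (ResidueField O) p]

/-- A prime at which the squared trace of Frobenius is not `(q + 1) ^ 2` is auxiliary. -/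
theorem isAuxiliary_of_regular {S T : Finset ℕ} {abar : ℕ → ResidueField O}
    {ρbar : ResidualGaloisRep (ResidueField O)}
    (hbar : ∀ ℓ : ℕ, ℓ.Prime → ℓ ∉ S → ∀ A : ValuationSubring Q̄, A.LiesOverPrime ℓ →
      ∀ τ : GQ, A.IsFrobeniusAt τ ℓ → LinearMap.charpoly (ρbar.ρ τ) =
        X ^ 2 - C (abar ℓ) * X + C (ℓ : ResidueField O))
    (D : ∀ (M : ℕ) [NeZero M], HeckeGaloisModel M p)
    (hspec : ∀ (M : ℕ) [NeZero M] (v : ℕ), v.Prime → v ≠ p → v ∣ M → ¬ v ^ 2 ∣ M →
      UnipotentAt (D M) v ∧ ToricSquareAt (D M) v)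
    (hST : S ⊆ T) {L : ℕ} (hL : Squarefree L) {q : ℕ} (hq : q.Prime) (hqS : q ∉ S) (hqp : q ≠ p)
    (hreg : ∀ A : ValuationSubring Q̄, A.LiesOverPrime q → ∀ σ : GQ, A.IsFrobeniusAt σ q →
      LinearMap.trace (ResidueField O) _ (ρbar.ρ σ) ^ 2 ≠ ((q : ResidueField O) + 1) ^ 2) :
    IsAuxiliary abar T L q := by
  classical
  obtain ⟨A, hA⟩ := Arith.exists_liesOverPrime hq
  obtain ⟨σ, hσ⟩ := Arith.exists_isFrobeniusAt hA hq
  have htr : LinearMap.trace (ResidueField O) _ (ρbar.ρ σ) = abar q := by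
    have h := hbar q hq hqS A hA σ hσ
    rw [EC.FrobTrace.charpoly_of_finrank_eq_two ρbar.finrank_eq] at h
    have h1 := congrArg (fun f => Polynomial.coeff f 1) h
    simpa [coeff_X_pow] using h1
  refine ⟨hq, htr ▸ hreg A hA σ hσ, fun M' g hg hM' hcong hqM => ?_, fun N hN hqN g hg φ hφ ℓ hℓ hℓT a ha => ?_⟩
  · have : NeZero M' := ⟨fun h => hL.ne_zero (Nat.eq_zero_of_zero_dvd (h ▸ hM'))⟩
    have hq2 : ¬ q ^ 2 ∣ M' := fun h2 => hq.ne_one
      (Nat.isUnit_iff.mp (hL q ((pow_two q).symm ▸ h2.trans hM')))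
    obtain ⟨hU, hT⟩ := hspec M' q hq hqp hqM hq2
    exact hreg A hA σ hσ (trace_sq_of_special_gen (S := T)
      (fun ℓ hℓ hℓT => hbar ℓ hℓ fun h => hℓT (hST h)) hg hcong hq hqp hqM (D M') hU hT hA hσ)
  · rcases eq_or_ne ℓ q with rfl | hne
    · exact congr_of_congr_outside_gen hbar
        (fun N p _ _ => GaloisReps.nonempty_heckeGaloisModel N p) hg φ T hφ hℓ hqS hqN hqp ha
    · exact hφ ℓ hℓ (fun h => hℓT (Finset.mem_erase.2 ⟨hne, h⟩)) a ha

variable [IsAdicComplete (maximalIdeal O) O] [Finite (ResidueField O)] [CharZero O]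

/-- **The ranks at the auxiliary levels are bounded.** -/
theorem rankBoundInput {ρbar : ResidualGaloisRep (ResidueField O)} {W : Deform.Rigid O}
    {abar : ℕ → ResidueField O} {S : Finset ℕ} {M₀ : ℕ} {V : Finset ℕ}
    (hset : PatchSetting p ρbar W abar S M₀ V)
    {D : ∀ (M : ℕ) [NeZero M], HeckeGaloisModel M p} (hM : ModelInputs p D)
    (hEis : ∀ T : Finset ℕ, ∃ ℓ : ℕ, ℓ.Prime ∧ ℓ ∉ T ∧ abar ℓ ≠ 1 + (ℓ : ResidueField O))
    (m : ℕ) : RankBoundInput p W abar M₀ S m := by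
  classical
  have : NeZero M₀ := ⟨hset.squarefree.ne_zero⟩
  refine ⟨2 ^ m * Module.finrank O (Classes O S M₀), fun n qv hQ hne => ?_⟩
  obtain ⟨bb, hW⟩ := hset.rigid
  set T := S ∪ Finset.univ.image qv with hTdef
  set L := M₀ * ∏ i, qv i
  have hLsq : Squarefree L := squarefree_mul_prod hset.squarefree hset.primes_mem hQ
  have hLT : ∀ ℓ : ℕ, ℓ.Prime → ℓ ∣ L → ℓ ∈ T := fun ℓ hℓ h => by
    rcases prime_dvd_mul_prod hQ hℓ h with h | ⟨i, rfl⟩
    · exact Finset.mem_union_left _ (hset.primes_mem ℓ hℓ h)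
    · exact Finset.mem_union_right _ (Finset.mem_image.mpr ⟨i, Finset.mem_univ i, rfl⟩)
  obtain ⟨e, he⟩ := GammaH.exists_isLocalizer (O := O) (GammaH.resIdeal T abar L) (Classes O T L)
  obtain ⟨e₀, he₀⟩ := GammaH.exists_isLocalizer (O := O) (GammaH.resIdeal T abar M₀)
    (Classes O T M₀)
  obtain ⟨Φ, -⟩ := Lifting.exists_twEquiv (GammaH.exists_injective_complex O) (hEis T) he₀ m qv L
    rfl hLsq hLT
    (fun i => isAuxiliary_of_regular hset.charpolys D hM.special Finset.subset_union_left hLsq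
      (hQ.prime i) (hQ.notMem i) (hQ.ne_p i) fun A hA σ hσ h' => by
        refine hQ.regular i A hA σ hσ ?_
        rw [LinearMap.trace_eq_matrix_trace (ResidueField O) bb (ρbar.ρ σ)] at h'
        rw [hW]
        exact h') e he
  rw [← GammaH.finrank_localPart_eq_heckeRank he, Φ.finrank_eq, Module.finrank_pi_fintype,
    Finset.sum_const, Finset.card_univ, Fintype.card_fin, smul_eq_mul]
  exact Nat.mul_le_mul le_rfl ((Submodule.finrank_le _).trans
    (Lifting.castMod O (⊤ : Subgroup (ZMod M₀)ˣ) S T O).finrank_eq.le)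

end Fermat.Agent.RT.Assembly
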