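import Fermat.Agent.RT.Assembly.Selmer
import Fermat.Agent.RT.InertiaTW.Inertia

/-!
# Chosen elements at the places of a patching level, and the tame relation
-/

set_option autoImplicit false
set_option linter.style.haveILetI false

noncomputable section

namespace Fermat.Agent.RT.Assembly

open IsLocalRing Fermat.Agent.Deform Fermat.Agent.Arith

variable {A : Type} [CommRing A] [IsLocalRing A]

/-- An element of the tame kernel of inertia at `v ≠ p` dies in a lift of a representation on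
which it is trivial. -/
theorem eq_one_of_tameTrivial_lift [IsHausdorff (maximalIdeal A) A] {p v : ℕ} (hp : p.Prime)
    (hv : v.Prime) (hvp : v ≠ p) (hpA : (p : A) ∈ maximalIdeal A) {r : Gal →* M2 A} (hr : IsCont r)
    {P : ValuationSubring QBar} (hP : P.LiesOverPrime v) {ν : Gal}
    (hν : ν ∈ P.inertiaSubgroupIn ℚ) (htriv : TameTrivial P ν)
    (hres : ∀ i j, (r ν - 1) i j ∈ maximalIdeal A) : r ν = 1 := by
  refine Matrix.ext fun i j => sub_eq_zero.mp (IsHausdorff.haus' (I := maximalIdeal A) _ fun n => ?_)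
  rw [SModEq.zero, smul_eq_mul, Ideal.mul_top]
  set q := (Ideal.Quotient.mk (maximalIdeal A ^ n)).mapMatrix (m := Fin 2)
  have hnil : (q (r ν) - 1) ^ n = 0 := by
    rw [← map_one q, ← map_sub, ← map_pow]
    refine Matrix.ext fun a b => Ideal.Quotient.eq_zero_iff_mem.mpr ?_
    have hpow : ∀ (k : ℕ) a b, ((r ν - 1) ^ k) a b ∈ maximalIdeal A ^ k := by
      intro k
      induction k with
      | zero => simp
      | succ k ih =>
        intro a b
        have e : (r ν - 1) ^ (k + 1) = (r ν - 1) ^ k * (r ν - 1) := pow_succ _ _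
        rw [e, Matrix.mul_apply, pow_succ (maximalIdeal A)]
        exact Ideal.sum_mem _ fun l _ => Ideal.mul_mem_mul (ih a l) (hres l b)
    exact hpow n a b
  have hpn : (p : M2 (A ⧸ maximalIdeal A ^ n)) ^ n = 0 := by
    rw [← map_natCast (Matrix.scalar (Fin 2) : A ⧸ maximalIdeal A ^ n →+* _),
      ← map_natCast (Ideal.Quotient.mk (maximalIdeal A ^ n)), ← map_pow, ← map_pow,
      Ideal.Quotient.eq_zero_iff_mem.mpr (Ideal.pow_mem_pow hpA n), map_zero]
  obtain ⟨k, hk⟩ := InertiaTW.exists_pow_prime_pow_eq_one hpn hnil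
  obtain ⟨L, hL, hL'⟩ := hr n
  have h1 : q (r ν) = 1 := by
    refine eq_one_of_tameTrivial (q.toMonoidHom.comp r) ⟨L, hL, fun σ hσ => ?_⟩ hP hv hν htriv
      (n := p ^ k) (fun h => hvp ((Nat.prime_dvd_prime_iff_eq hv hp).mp (hv.dvd_of_dvd_pow h))) hk
    exact (InertiaTW.mapMatrix_mk_eq_one_iff _ _).mpr fun a b => hL' σ hσ a b
  exact (InertiaTW.mapMatrix_mk_eq_one_iff _ _).mp h1 i j

/-- **The tame relation.** -/
theorem frobenius_conj_eq_pow [IsHausdorff (maximalIdeal A) A] {p v : ℕ} (hp : p.Prime)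
    (hv : v.Prime) (hvp : v ≠ p) (hpA : (p : A) ∈ maximalIdeal A) {r : Gal →* M2 A} (hr : IsCont r)
    {P : ValuationSubring QBar} (hP : P.LiesOverPrime v)
    (hres : ∀ τ ∈ P.inertiaSubgroupIn ℚ, ∀ i j, (r τ - 1) i j ∈ maximalIdeal A)
    {φ σ : Gal} (hφ : P.IsFrobeniusAt φ v) (hσ : σ ∈ P.inertiaSubgroupIn ℚ) :
    r φ * r σ = r σ ^ v * r φ := by
  obtain ⟨hmem, htriv⟩ := tameTrivial_frobenius_conj hφ hσ
  have h1 := eq_one_of_tameTrivial_lift hp hv hvp hpA hr hP hmem htriv (hres _ hmem)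
  calc r φ * r σ = r (φ * σ * φ⁻¹ * (σ ^ v)⁻¹) * r (σ ^ v) * r φ := by
        simp only [← map_mul]
        congr 1
        group
    _ = r σ ^ v * r φ := by rw [h1, one_mul, map_pow]

/-- The chosen elements at one place. -/
structure PlaceData (p v : ℕ) [Fact v.Prime] where
  σ : Gal
  φ : Gal
  a : (ZMod v)ˣ
  π : QBar
  m : ℤ
  σ_mem : σ ∈ (padicPlace v).inertiaSubgroupIn ℚ
  φ_frob : (padicPlace v).IsFrobeniusAt φ v
  σ_root : ∀ μ : QBar, μ ^ v = 1 → σ μ = μ ^ (a : ZMod v).val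
  a_order : orderOf a = v - 1
  π_ne : π ≠ 0
  π_ord : Mazur.Eisenstein.ordAt (padicPlace v) v π = m / p
  π_move : EC.Reduction.res (padicPlace v) (σ π / π) ≠ 1
  π_pow : EC.Reduction.res (padicPlace v) (σ π / π) ^ p = 1

theorem nonempty_placeData {p v : ℕ} [Fact v.Prime] (hp : p.Prime) (hpv : p ∣ v - 1) :
    Nonempty (PlaceData p v) := by
  have hA := CFT.Local.padicPlace_liesOverPrime v
  have hv : v.Prime := Fact.out
  obtain ⟨σ, a, π, m, h1, h2, h3, h4, h5, h6, h7⟩ := exists_inertia_uniformiser hp hA hv hpv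
  obtain ⟨φ, hφ⟩ := exists_isFrobeniusAt hA hv
  exact ⟨⟨σ, φ, a, π, m, h1, hφ, h2, h3, h4, h5, h6, h7⟩⟩

/-- An inertia element acting on the `q`-th roots of unity through a primitive root. -/
theorem exists_inertia_generator {q : ℕ} (hq : q.Prime) {P : ValuationSubring QBar}
    (hP : P.LiesOverPrime q) :
    ∃ (σ : Gal) (a : (ZMod q)ˣ), σ ∈ P.inertiaSubgroupIn ℚ ∧
      (∀ μ : QBar, μ ^ q = 1 → σ μ = μ ^ (a : ZMod q).val) ∧ orderOf a = q - 1 := by
  have := Fact.mk hq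
  obtain ⟨ζ, hζ⟩ := HasEnoughRootsOfUnity.exists_primitiveRoot QBar q
  obtain ⟨a, ha⟩ := IsCyclic.exists_generator (α := (ZMod q)ˣ)
  set n := (a : ZMod q).val with hn
  obtain ⟨σ, hσ, hσζ⟩ := Mazur.Eisenstein.exists_inertia_apply hP hq (m := 0) (ζ := ζ) (η := ζ ^ n)
    (by simpa using hζ) (by simpa using hζ.pow_of_coprime n (ZMod.val_coe_unit_coprime a))
  refine ⟨σ, a, hσ, fun μ hμ => ?_, by
    rw [orderOf_eq_card_of_forall_mem_zpowers ha, Nat.card_eq_fintype_card, ZMod.card_units]⟩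
  obtain ⟨i, -, rfl⟩ := hζ.eq_pow_of_pow_eq_one hμ
  rw [map_pow, hσζ, pow_right_comm]

end Fermat.Agent.RT.Assembly
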