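import Fermat.Agent.RT.Assembly.RepLemmas
import Fermat.Agent.RT.Assembly.Places
import Fermat.Agent.RT.Assembly.Level
import Fermat.Agent.RT.Glue.Bridge

/-!
# A patching level from a Hecke module
-/

set_option autoImplicit false
set_option linter.style.haveILetI false

noncomputable section

namespace Fermat.Agent.RT.Assembly

open IsLocalRing MvPowerSeries Fermat.Agent.Deform Fermat.Agent.CFT.Tangent Fermat.Agent.Arith
open Fermat.Agent.GaloisReps (HeckeGaloisModel CongruenceProperty)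
open Fermat.Agent.NewformLocal (UnipotentAt ToricSquareAt)
open scoped Classical

variable {O : Type} [CommRing O] [IsDomain O] [IsDiscreteValuationRing O]
  [IsAdicComplete (maximalIdeal O) O] [Finite (ResidueField O)] [CharZero O]

/-- The residual hypotheses of the patching argument at the level `M₀` and the places `V`. -/
structure PatchSetting (p : ℕ) (ρbar : ResidualGaloisRep (ResidueField O)) (W : Rigid O)
    (abar : ℕ → ResidueField O) (S : Finset ℕ) (M₀ : ℕ) (V : Finset ℕ) : Prop where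
  absIrr : ρbar.IsAbsolutelyIrreducible
  rigid : ∃ bb, W.rb = matRes ρbar bb
  charpolys : Glue.HasCharpolys S abar ρbar
  squarefree : Squarefree M₀
  primes_mem : ∀ q : ℕ, q.Prime → q ∣ M₀ → q ∈ S
  p_mem : p ∈ S
  V_prime : ∀ v ∈ V, v.Prime
  V_dvd : ∀ v ∈ V, v ∣ M₀
  V_ne_p : ∀ v ∈ V, v ≠ p
  V_mod : ∀ v ∈ V, p ∣ v - 1
  inertia_trace : ∀ q : ℕ, q.Prime → q ≠ p → ∀ A : ValuationSubring QBar, A.LiesOverPrime q →
    ∀ σ ∈ A.inertiaSubgroupIn ℚ, LinearMap.trace (ResidueField O) ρbar.V (ρbar.ρ σ) = 2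
  V_inertia : ∀ v ∈ V, ∀ A : ValuationSubring QBar, A.LiesOverPrime v →
    ∀ σ ∈ A.inertiaSubgroupIn ℚ, W.rb σ = 1
  V_frobenius : ∀ v ∈ V, ∀ A : ValuationSubring QBar, A.LiesOverPrime v →
    ∀ σ, A.IsFrobeniusAt σ v → ∃ e, ∀ i j, W.rb σ i j = if i = j then e else 0

/-- The inputs on the Galois representations of newforms. -/
structure ModelInputs (p : ℕ) [Fact p.Prime] (D : ∀ (M : ℕ) [NeZero M], HeckeGaloisModel M p) :
    Prop where
  special : ∀ (M : ℕ) [NeZero M] (v : ℕ), v.Prime → v ≠ p → v ∣ M → ¬ v ^ 2 ∣ M →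
    UnipotentAt (D M) v ∧ ToricSquareAt (D M) v
  traceInertia : ∀ (q R M : ℕ) [Fact q.Prime] [NeZero R] [NeZero M]
    (g : CuspForm (CongruenceSubgroup.Gamma0 M) 2), InertiaTW.TraceInertia p q R M g
  congruence : ∀ (N : ℕ) [NeZero N], CongruenceProperty N p

variable {p : ℕ} [Fact p.Prime] [CharP (ResidueField O) p]

/-- The subsets of the primes of the level at which the condition is unipotence. -/
def uniPlaces (p M₀ : ℕ) (V : Finset ℕ) : Finset ℕ := (M₀.primeFactors \ V).erase p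

set_option maxHeartbeats 1600000 in
set_option synthInstance.maxHeartbeats 400000 in
/-- **One level.** -/
theorem exists_patchLevel_of_heckeModule (hp2 : p ≠ 2) (hp : (p : O) ∈ maximalIdeal O)
    {ρbar : ResidualGaloisRep (ResidueField O)} {W : Rigid O} {abar : ℕ → ResidueField O}
    {S : Finset ℕ} {M₀ : ℕ} {V : Finset ℕ} (hset : PatchSetting p ρbar W abar S M₀ V)
    {D : ∀ (M : ℕ) [NeZero M], HeckeGaloisModel M p} (hM : ModelInputs p D)
    {C : CondAt O} (hC : IsLocalCond ρbar C)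
    {ζ ζi c π : O} (hζp : ζ ^ p = 1) (hζi : ζ * ζi = 1) (hζne : ζ ≠ ζi) (hc : 2 * c = 1)
    (hπ : Irreducible π) (hζπ : ζ - 1 ∈ maximalIdeal O)
    {m g n B : ℕ} {qv : Fin m → ℕ} (hQ : IsTWSet p W.rb S n qv)
    (hbound : ∀ Z : Submodule (ResidueField O) (Gal → M2 (ResidueField O)),
      Module.Finite (ResidueField O) Z →
      (∀ b ∈ Z, IsSelmerClass p C W.rb (M₀.primeFactors ∪ Finset.univ.image qv)
        (uniPlaces p M₀ V) V b) →
      (∀ b ∈ Z, ∀ X, b = cobdLin W.rb X → b = 0) → Module.finrank (ResidueField O) Z ≤ g)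
    {L : ℕ} [NeZero L] (hL : L = M₀ * ∏ i, qv i)
    {ψ : (ZMod L)ˣ →* LevelGroup {v // v ∈ V} p m n}
    [∀ v : {v // v ∈ V}, Fact v.1.Prime] {aV : ∀ v : {v // v ∈ V}, PlaceData p v.1}
    {σQ : Fin m → Gal} {aQ : ∀ i, (ZMod (qv i))ˣ}
    {PQ : Fin m → ValuationSubring QBar} (hPQ : ∀ i, (PQ i).LiesOverPrime (qv i))
    (hσQ : ∀ i, σQ i ∈ (PQ i).inertiaSubgroupIn ℚ)
    (hσQ' : ∀ i, ∀ μ : QBar, μ ^ qv i = 1 → σQ i μ = μ ^ (aQ i : ZMod (qv i)).val)
    (hψV : ∀ (v : {v // v ∈ V}) (hd : v.1 ∣ L) (u : (ZMod L)ˣ),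
      ((u : ZMod L).cast : ZMod (L / v.1)) = 1 → ZMod.unitsMap hd u = (aV v).a →
        ψ u ^ halfInvExp (LevelGroup {v // v ∈ V} p m n) = levelGen p n (Sum.inl v))
    (hψQ : ∀ (i : Fin m) (hd : qv i ∣ L) (u : (ZMod L)ˣ),
      ((u : ZMod L).cast : ZMod (L / qv i)) = 1 → ZMod.unitsMap hd u = aQ i →
        ψ u ^ halfInvExp (LevelGroup {v // v ∈ V} p m n) = levelGen p n (Sum.inr i))
    (hψ1 : ∀ w : ℕ, w ∉ V → (∀ i, qv i ≠ w) → w.Prime → w ∣ L → ∀ u : (ZMod L)ˣ,
      ((u : ZMod L).cast : ZMod (L / w)) = 1 → ψ u = 1)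
    (H : HeckeModule L ψ (S ∪ Finset.univ.image qv) abar) (hd : 0 < H.d) (hdB : H.d ≤ B)
    (hcondP : ∀ [IsLocalRing H.algebra]
      (hS : ∀ q : ℕ, q.Prime → q ∣ L → q ∈ S ∪ Finset.univ.image qv)
      (pt : ∀ θ : H.algebra →ₐ[O] Glue.KBar O, Glue.Point (p := p) H hS θ.toRingHom)
      (G : Glue.Glued D pt),
      G.rep.residual.IsEquiv (ρbar.baseChangeAlong (ResidueField.map (algebraMap O H.algebra))) →
        C G.rep)
    (v₀ : {v // v ∈ V}) (hncl : ¬ IsCongruentLevel (S ∪ Finset.univ.image qv) abar (L / v₀.1)) :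
    Nonempty (PatchLevel (fun _ : {v // v ∈ V} => c * (ζ - ζi))
      (frobRel (g := g) c v₀ v₀.1) π p m B n) := by
  have hpp : p.Prime := Fact.out
  haveI : ∀ i, Fact (qv i).Prime := fun i => ⟨hQ.prime i⟩
  haveI : Nonempty {v // v ∈ V} := ⟨v₀⟩
  obtain ⟨bb, hW⟩ := hset.rigid
  have hS : ∀ q : ℕ, q.Prime → q ∣ L → q ∈ (S ∪ Finset.univ.image qv) := fun q hq hqL => by
    rw [hL] at hqL
    rcases hq.dvd_mul.mp hqL with h | h
    · exact Finset.mem_union_left _ (hset.primes_mem q hq h)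
    · obtain ⟨i, -, hi⟩ := (Prime.dvd_finsetProd_iff hq.prime _).mp h
      exact Finset.mem_union_right _ (Finset.mem_image.mpr ⟨i, Finset.mem_univ i,
        ((Nat.prime_dvd_prime_iff_eq hq (hQ.prime i)).mp hi).symm⟩)
  have hLsq : Squarefree L := by
    rw [hL]
    refine (Nat.squarefree_mul (Nat.Coprime.prod_right fun i _ => ?_)).mpr ⟨hset.squarefree, ?_⟩
    · exact ((hQ.prime i).coprime_iff_not_dvd.mpr fun h =>
        hQ.notMem i (hset.primes_mem _ (hQ.prime i) h)).symm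
    · refine Finset.squarefree_prod_of_pairwise_isCoprime (fun i _ j _ hij => ?_)
        fun i _ => (hQ.prime i).squarefree
      exact Nat.coprime_iff_isRelPrime.mp
        ((Nat.coprime_primes (hQ.prime i) (hQ.prime j)).mpr fun h => hij (hQ.injective h))
  have hVL : ∀ v : {v // v ∈ V}, v.1 ∣ L := fun v =>
    hL ▸ dvd_mul_of_dvd_left (hset.V_dvd _ v.2) _
  have hQL : ∀ i, qv i ∣ L := fun i =>
    hL ▸ dvd_mul_of_dvd_right (Finset.dvd_prod_of_mem _ (Finset.mem_univ i)) _
  have hpS : p ∈ (S ∪ Finset.univ.image qv) := Finset.mem_union_left _ hset.p_mem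
  have hbar : Glue.HasCharpolys (S ∪ Finset.univ.image qv) abar ρbar := fun ℓ hℓ hℓS =>
    hset.charpolys ℓ hℓ fun h => hℓS (Finset.mem_union_left _ h)
  have hΔ := isPGroup_levelGroup (V := {v // v ∈ V}) (r := m) p n
  haveI := Glue.isLocalRing_algebra H hp hΔ hd
  haveI := Glue.isLocalHom_algebraMap H hp hΔ
  haveI := Glue.isAdicComplete_algebra H
  have hA : IsResAlg O H.algebra :=
    ⟨inferInstance, Glue.residue_algebraMap_surjective H hp hΔ⟩
  obtain ⟨pt, G, hGres, hGdet, hGunr, -⟩ :=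
    Glue.exists_rep (H := H) hp hΔ hp2 hpS hS hset.absIrr hbar D
  obtain ⟨ru, hrc, hl, hn, hequiv, hchar, htr, hdet⟩ := exists_normalised hW hA G.rep hGres
  -- inertia and Frobenius elements
  have hdetru : (toRep ru hrc).DetIsCyclotomic p :=
    ⟨hGdet.1, fun k σ a ha => by rw [det_toRep, hdet]; exact hGdet.2 k σ a ha⟩
  have hdetO : ∀ σ, (ru σ).det ∈ Set.range (algebraMap O H.algebra) := fun σ => by
    rw [hdet]; exact det_mem_range hp hGdet σ
  have hres1 : ∀ v : {v // v ∈ V}, ∀ τ ∈ (padicPlace v.1).inertiaSubgroupIn ℚ, ∀ i j,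
      augment hA (ru τ i j) = if i = j then 1 else 0 := fun v τ hτ i j => by
    rw [hl, hset.V_inertia _ v.2 _ (CFT.Local.padicPlace_liesOverPrime v.1) τ hτ, Matrix.one_apply]
  have hfrob : ∀ v : {v // v ∈ V}, ∃ e, ∀ i j,
      augment hA (ru (aV v).φ i j) = if i = j then e else 0 := fun v => by
    obtain ⟨e, he⟩ := hset.V_frobenius _ v.2 _ (CFT.Local.padicPlace_liesOverPrime v.1) _
      (aV v).φ_frob
    exact ⟨e, fun i j => by rw [hl, he]⟩
  have hdet1 : ∀ v : {v // v ∈ V}, (ru (aV v).σ).det = 1 := fun v => by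
    rw [hdet, det_eq_natCast hGdet (q := 1) fun k μ hμ => ?_, Nat.cast_one]
    rw [pow_one]
    exact inertia_root (CFT.Local.padicPlace_liesOverPrime v.1) (hset.V_prime _ v.2) (aV v).σ_mem
      hμ fun h => hset.V_ne_p _ v.2
        ((Nat.prime_dvd_prime_iff_eq (hset.V_prime _ v.2) hpp).mp
          ((hset.V_prime _ v.2).dvd_of_dvd_pow h))
  have hdetφ : ∀ v : {v // v ∈ V}, (ru (aV v).φ).det = (v.1 : H.algebra) := fun v => by
    rw [hdet]
    exact det_eq_natCast hGdet fun k μ hμ => GaloisReps.frobenius_apply_root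
      (CFT.Local.padicPlace_liesOverPrime v.1) (hset.V_prime _ v.2) (aV v).φ_frob hμ fun h =>
        hset.V_ne_p _ v.2 ((Nat.prime_dvd_prime_iff_eq (hset.V_prime _ v.2) hpp).mp
          ((hset.V_prime _ v.2).dvd_of_dvd_pow h))
  have hinertia : ∀ (w : ℕ) [Fact w.Prime] (hw : w ∣ L) (hwp : w ≠ p)
      (P : ValuationSubring QBar) (hP : P.LiesOverPrime w) (σ : Gal)
      (hσ : σ ∈ P.inertiaSubgroupIn ℚ) (a : (ZMod w)ˣ)
      (ha : ∀ μ : QBar, μ ^ w = 1 → σ μ = μ ^ (a : ZMod w).val) (x : LevelGroup {v // v ∈ V} p m n)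
      (hx : ∀ u : (ZMod L)ˣ, ((u : ZMod L).cast : ZMod (L / w)) = 1 →
        ZMod.unitsMap hw u = a → ψ u ^ halfInvExp (LevelGroup {v // v ∈ V} p m n) = x),
      levelRep H hζp (ru σ).trace = levelChar hζp n x • 1 + levelChar hζp n x⁻¹ • 1 := by
    intro w _ hw hwp P hP σ hσ a ha x hx
    have hcop : w.Coprime (L / w) := (Fact.out : w.Prime).coprime_iff_not_dvd.mpr fun h =>
      (Fact.out : w.Prime).not_isUnit (hLsq _ ((Nat.dvd_div_iff_mul_dvd hw).mp h))
    obtain ⟨u, hu, hua⟩ := exists_unit_crt hw hcop a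
    have hua' : ((u : ZMod L).cast : ZMod w) = ((a : ZMod w).val : ℕ) := by
      rw [ZMod.natCast_zmod_val, ← hua, ZMod.unitsMap_val]
    have hE := G.twistedInertia (ρbar := ρbar) hp hΔ hp2 hpS hLsq hw hwp
      (fun R M _ _ g => hM.traceInertia w R M g)
      (by
        haveI : NeZero (w ^ 2 * (L / w) ^ 2) := ⟨by
          rw [← mul_pow, Nat.mul_div_cancel' hw]; exact pow_ne_zero 2 (NeZero.ne L)⟩
        exact hM.congruence (w ^ 2 * (L / w) ^ 2))
      (fun M _ _ hwM hw2 => (hM.special M w Fact.out hwp hwM hw2).1) hGres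
      (fun A hA τ hτ => hset.inertia_trace w Fact.out hwp A hA τ hτ)
    have hcp := hchar σ
    rw [G.charpoly_inertia Fact.out hwp hE hP hσ ha u hu hua', hx u hu hua] at hcp
    rw [trace_eq_add_of_charpoly hcp, map_add, levelRep_dia, levelRep_dia]
  have hinv : ∀ x : LevelGroup {v // v ∈ V} p m n,
      levelChar hζp n x * levelChar hζp n x⁻¹ = (1 : MvPowerSeries (Fin m) O ⧸ levelIdeal O p n) :=
    fun x => by rw [← map_mul, mul_inv_cancel, map_one]
  have htrT : ∀ v : {v // v ∈ V}, levelRep H hζp (ru (aV v).σ).trace =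
      levelRep H hζp (algebraMap O H.algebra (ζ + ζi)) := fun v => by
    rw [hinertia v.1 (hVL v) (hset.V_ne_p _ v.2) _ (CFT.Local.padicPlace_liesOverPrime v.1) _
      (aV v).σ_mem _ (aV v).σ_root _ (hψV v (hVL v)), AlgHom.commutes,
      Algebra.algebraMap_eq_smul_one (ζ + ζi), add_smul]
    have h1 := hinv (levelGen p n (Sum.inl v))
    rw [levelChar_gen_inl] at h1 ⊢
    have h2 : levelChar hζp n (levelGen p n (Sum.inl v))⁻¹ =
        algebraMap O (MvPowerSeries (Fin m) O ⧸ levelIdeal O p n) ζi := by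
      calc levelChar hζp n (levelGen p n (Sum.inl v))⁻¹
          = algebraMap O _ (ζ * ζi) * levelChar hζp n (levelGen p n (Sum.inl v))⁻¹ := by
            rw [hζi, map_one, one_mul]
        _ = algebraMap O _ ζi *
            (algebraMap O _ ζ * levelChar hζp n (levelGen p n (Sum.inl v))⁻¹) := by
            rw [map_mul]; ring
        _ = _ := by rw [h1, mul_one]
    rw [h2, algebraMap_smul, algebraMap_smul]
  have htrQ : ∀ i, Matrix.scalar (Fin H.d)
        ((1 + Ideal.Quotient.mk (levelIdeal O p n) (X i)) ^ 2 + 1) =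
      Matrix.scalar (Fin H.d) (1 + Ideal.Quotient.mk (levelIdeal O p n) (X i)) *
        levelRep H hζp (ru (σQ i)).trace := fun i => by
    rw [hinertia (qv i) (hQL i) (hQ.ne_p i) _ (hPQ i) _ (hσQ i) _ (hσQ' i) _ (hψQ i (hQL i))]
    have h1 := hinv (levelGen p n (Sum.inr i))
    rw [levelChar_gen_inr] at h1 ⊢
    rw [Matrix.scalar_apply, Matrix.scalar_apply, ← Matrix.smul_eq_diagonal_mul, smul_add,
      smul_smul, smul_smul, h1, ← pow_two, ← Matrix.smul_one_eq_diagonal, add_smul]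
  -- the element at `v₀`
  have hcop₀ : v₀.1.Coprime (L / v₀.1) := (hset.V_prime _ v₀.2).coprime_iff_not_dvd.mpr fun h =>
    (hset.V_prime _ v₀.2).not_isUnit (hLsq _ ((Nat.dvd_div_iff_mul_dvd (hVL v₀)).mp h))
  have hf : ∀ i j, levelRep H hζp ((ru (aV v₀).φ).trace ^ 2 - ((v₀.1 : H.algebra) + 1) ^ 2) i j ∈
      Ideal.span {algebraMap O (MvPowerSeries (Fin m) O ⧸ levelIdeal O p n) π} :=
    levelRep_mem_span H hp (v := v₀) (fun θ hθ => by
      have hkey := G.trace_sq_frobenius (hset.V_prime _ v₀.2) (hVL v₀) (hset.V_ne_p _ v₀.2) hncl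
        (fun M _ _ hvM hv2 => hM.special M v₀.1 (hset.V_prime _ v₀.2) (hset.V_ne_p _ v₀.2) hvM hv2)
        (CFT.Local.padicPlace_liesOverPrime v₀.1) (aV v₀).φ_frob θ
        fun u hu => hθ _ (psi_mem_placeSub (coprime_halfInvExp hp2 n) (hVL v₀) hcop₀
          (aV v₀).a_order (hψV v₀ (hVL v₀)) hu)
      rw [← htr] at hkey
      rw [map_sub, map_pow, hkey, map_pow, map_add, map_natCast, map_one, sub_self])
      hζp hπ hζπ
  -- the algebra of entries
  set T := Algebra.adjoin O (entries ru) with hT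
  haveI : IsLocalRing T := isLocalRing_subalgebra T
  haveI := finite_subalgebra T
  have hTA := isResAlg_subalgebra hA T
  haveI := hTA.isLocalHom
  haveI := IsNoetherianRing.of_finite O T
  have hTS : ∀ σ i j, ru σ i j ∈ T := fun σ i j => Algebra.subset_adjoin ⟨(σ, i, j), rfl⟩
  have hTc : IsCont (corestrict T ru hTS) := isCont_corestrict hA T hrc hTS
  have hTdetO : ∀ σ, (corestrict T ru hTS σ).det ∈ Set.range (algebraMap O T) := fun σ => by
    obtain ⟨o, ho⟩ := hdetO σ
    refine ⟨o, Subtype.ext ?_⟩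
    rw [Subalgebra.coe_algebraMap, ho]
    exact ((T.val : T →+* H.algebra).map_det (corestrict T ru hTS σ)).symm
  have hval : IsLocalHom (T.val : T →+* H.algebra) := isLocalHom_subalgebra_val T
  have hTdet : (toRep (corestrict T ru hTS) hTc).DetIsCyclotomic p := by
    refine detIsCyclotomic_of_injective hp T.val Subtype.val_injective hval
      ⟨hGdet.1, fun k σ a ha => ?_⟩ fun σ => by rw [det_toRep]; exact hTdetO σ
    rw [det_baseChangeAlong, det_toRep, RingHom.map_det]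
    show (ru σ).det - _ ∈ _
    rw [hdet]
    exact hGdet.2 k σ a ha
  have hTl := lifts_corestrict T hl hTS
  have hTres : (toRep (corestrict T ru hTS) hTc).residual.IsEquiv
      (ρbar.baseChangeAlong (ResidueField.map (algebraMap O T))) :=
    residual_isEquiv_of_lifts hW hTA _ (Pi.basisFun T (Fin 2))
      ((matOf_toRep (corestrict T ru hTS) hTc).symm ▸ hTl)
  have hTC : C (toRep (corestrict T ru hTS) hTc) :=
    hC.descend T.val hval _ Subtype.val_injective hTres
      (hC.of_isEquiv (isEquiv_symm (isEquiv_trans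
        (isEquiv_baseChangeAlong_toRep _ hval (corestrict T ru hTS) hTc)
        (isEquiv_toRep_congr (mapM_corestrict T ru hTS) _ hrc)))
        (hC.of_isEquiv hequiv (hcondP hS pt G hGres)))
  have hg := finrank_killedDer_le (W := W) (h := hTA) (ru := corestrict T ru hTS) hp2 C
    (T := M₀.primeFactors ∪ Finset.univ.image qv) (U := uniPlaces p M₀ V) (V := V)
    hTl (isNormal_corestrict T hn hTS) hTc (adjoin_entries_corestrict ru) hTdetO hTdet
    (fun δ hδ => isTangentClass_of_cond hC hTl hTc hTC hTdet hδ)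
    (fun ℓ hℓ hℓp hℓT A hA τ hτ => by
      have hndvd : ¬ ℓ ∣ L * p := fun h => by
        rcases hℓ.dvd_mul.mp h with h | h
        · rw [hL] at h
          rcases hℓ.dvd_mul.mp h with h | h
          · exact hℓT (Finset.mem_union_left _
              (Nat.mem_primeFactors.mpr ⟨hℓ, h, hset.squarefree.ne_zero⟩))
          · obtain ⟨i, -, hi⟩ := (Prime.dvd_finsetProd_iff hℓ.prime _).mp h
            exact hℓT (Finset.mem_union_right _ (Finset.mem_image.mpr ⟨i, Finset.mem_univ i,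
              ((Nat.prime_dvd_prime_iff_eq hℓ (hQ.prime i)).mp hi).symm⟩))
        · exact hℓp ((Nat.prime_dvd_prime_iff_eq hℓ hpp).mp h)
      have h1 := matrix_eq_one_of_isEquiv hequiv (hGunr ℓ hℓ hndvd A hA τ hτ)
      refine Matrix.ext fun i j => Subtype.ext ?_
      rw [show ((corestrict T ru hTS τ i j : T) : H.algebra) = ru τ i j from rfl, h1,
        Matrix.one_apply, Matrix.one_apply]
      split_ifs <;> simp)
    (fun q hq A hA τ hτ => by
      simp only [uniPlaces, Finset.mem_erase, Finset.mem_sdiff, Nat.mem_primeFactors] at hq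
      obtain ⟨hqp, ⟨hqprime, hqM, -⟩, hqV⟩ := hq
      have hqne : ∀ i, qv i ≠ q := fun i h =>
        hQ.notMem i (h ▸ hset.primes_mem q hqprime hqM)
      have hqL : q ∣ L := hL ▸ dvd_mul_of_dvd_left hqM _
      have hcp := hchar τ
      rw [G.isUnipotentOnInertiaAt hqprime hqL hqp (hψ1 q hqV hqne hqprime hqL)
        (fun M _ _ hqM hq2 => (hM.special M q hqprime hqp hqM hq2).1) A hA τ hτ] at hcp
      refine ⟨2, Subtype.ext ?_⟩
      rw [Subalgebra.coe_algebraMap, map_ofNat]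
      have h2 : (ru τ).trace = 2 := trace_eq_of_charpoly (d := 1) (hcp.trans (by
        rw [map_one, map_ofNat]; ring))
      exact h2.symm.trans (AddMonoidHom.map_trace (T.val : T →+* H.algebra)
        (corestrict T ru hTS τ)).symm)
    (ι := {v // v ∈ V}) (fun v => v.1) (fun v hv => ⟨⟨v, hv⟩, rfl⟩) (fun v => hset.V_ne_p _ v.2)
    (fun v g hg => hset.V_inertia _ v.2 _ (CFT.Local.padicPlace_liesOverPrime v.1) g hg)
    (fun v => (aV v).σ) (fun v => (aV v).φ) (fun v => (aV v).σ_mem) (fun v => (aV v).φ_frob)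
    (fun v => by
      obtain ⟨e, he⟩ := hfrob v
      exact ⟨e, fun i j => (augment_subalgebra hA T _).trans (he i j)⟩)
    (fun v => (aV v).π) (fun v => (aV v).π_ne) (fun v => (aV v).m) (fun v => (aV v).π_ord)
    (fun v => (aV v).π_move) (fun v => (aV v).π_pow)
    (c := algebraMap O T c) (by rw [← map_ofNat (algebraMap O T) 2, ← map_mul, hc, map_one])
    hbound
  refine exists_patchLevel hA hd hdB (levelRep H hζp) c hc ru (fun v => (aV v).σ)
    (fun v => (aV v).φ) σQ ζ ζi hζi hζp hζne (fun v => v.1)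
    (fun v => ?_) (fun v i j => hres1 v _ (aV v).σ_mem i j) hfrob hdet1 hdetφ (fun v => ?_)
    htrT htrQ v₀ hf hg
  · obtain ⟨k, hk⟩ := hset.V_mod _ v.2
    rw [show v.1 = 1 + p * k by have := (hset.V_prime _ v.2).two_le; omega,
      Nat.add_mul_mod_self_left, Nat.one_mod_eq_one.mpr hpp.ne_one]
  · refine frobenius_conj_eq_pow hpp (hset.V_prime _ v.2) (hset.V_ne_p _ v.2) hGdet.1 hrc
      (CFT.Local.padicPlace_liesOverPrime v.1) (fun τ hτ i j => ?_) (aV v).φ_frob (aV v).σ_mem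
    rw [← augment_eq_zero_iff hA, Matrix.sub_apply, map_sub, hres1 v τ hτ, Matrix.one_apply]
    split_ifs <;> simp

end Fermat.Agent.RT.Assembly
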