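import Fermat.Agent.RT.Glue.Approx
import Fermat.Agent.Deform.Burnside
import Fermat.Agent.Deform.Residual
import Fermat.Agent.Arith.Chebotarev.Main

/-!
# An absolutely irreducible system is not Eisenstein
-/

set_option autoImplicit false
set_option linter.style.haveILetI false

noncomputable section

namespace Fermat.Agent.RT.Assembly

open IsLocalRing Fermat.Agent.Deform

/-- No homomorphism with spanning image has all traces equal to `1 + det`. -/
theorem exists_trace_ne_one_add_det {k : Type} [Field k] {G : Type} [Group G] (r : G →* M2 k)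
    (hspan : Submodule.span k (Set.range r) = ⊤) :
    ∃ g, (r g).trace ≠ 1 + (r g).det := by
  by_contra hcon
  push Not at hcon
  let Ψ : (G →₀ k) →ₗ[k] M2 k := Finsupp.linearCombination k r
  let Λ : (G →₀ k) →ₗ[k] (Fin 2 → k) :=
    Finsupp.linearCombination k fun g => ![1, (r g).det]
  have hΨ : LinearMap.range Ψ = ⊤ := by rw [Finsupp.range_linearCombination, hspan]
  have hker : LinearMap.ker Λ ≤ LinearMap.ker Ψ := by
    intro c hc
    rw [LinearMap.mem_ker] at hc ⊢
    have h0 := congrFun hc 0
    have h1 := congrFun hc 1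
    simp only [Λ, Finsupp.linearCombination_apply, Finsupp.sum, Finset.sum_apply, Pi.smul_apply,
      smul_eq_mul, Pi.zero_apply, Matrix.cons_val_zero, Matrix.cons_val_one, mul_one] at h0 h1
    have hall : ∀ Y : M2 k, (Ψ c * Y).trace = 0 := by
      intro Y
      have hY : Y ∈ Submodule.span k (Set.range r) := by rw [hspan]; trivial
      induction hY using Submodule.span_induction with
      | mem Y hY =>
        obtain ⟨h, rfl⟩ := hY
        simp only [Ψ, Finsupp.linearCombination_apply, Finsupp.sum, Finset.sum_mul,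
          Matrix.trace_sum, smul_mul_assoc, Matrix.trace_smul, smul_eq_mul, ← map_mul, hcon,
          mul_add, mul_one, Finset.sum_add_distrib, h0, zero_add]
        simp only [map_mul, Matrix.det_mul, ← mul_assoc, ← Finset.sum_mul, h1, zero_mul]
      | zero => rw [mul_zero, Matrix.trace_zero]
      | add x y _ _ hx hy => rw [mul_add, Matrix.trace_add, hx, hy, add_zero]
      | smul a x _ hx => rw [mul_smul_comm, Matrix.trace_smul, hx, smul_zero]
    refine Matrix.ext fun i j => ?_
    have h2 := hall (Matrix.single j i 1)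
    revert h2
    fin_cases i <;> fin_cases j <;>
      simp [Matrix.trace_fin_two, Matrix.mul_apply, Matrix.single]
  have hsurj : Function.Surjective ((LinearMap.ker Λ).liftQ Ψ hker) := by
    rw [← LinearMap.range_eq_top, Submodule.range_liftQ, hΨ]
  have h4 := LinearMap.finrank_le_finrank_of_surjective
    (f := ((LinearMap.ker Λ).liftQ Ψ hker).comp Λ.quotKerEquivRange.symm.toLinearMap)
    (hsurj.comp Λ.quotKerEquivRange.symm.surjective)
  have h2 := Submodule.finrank_le (LinearMap.range Λ)
  rw [Module.finrank_matrix, Fintype.card_fin, Module.finrank_self, mul_one] at h4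
  rw [Module.finrank_fin_fun] at h2
  omega

variable {O : Type} [CommRing O] [IsDomain O] [IsDiscreteValuationRing O]

/-- An absolutely irreducible system is not Eisenstein. -/
theorem exists_abar_ne_one_add {S : Finset ℕ} {abar : ℕ → ResidueField O}
    {ρbar : ResidualGaloisRep (ResidueField O)} (habs : ρbar.IsAbsolutelyIrreducible)
    (hbar : Glue.HasCharpolys S abar ρbar) (T : Finset ℕ) :
    ∃ ℓ : ℕ, ℓ.Prime ∧ ℓ ∉ T ∧ abar ℓ ≠ 1 + (ℓ : ResidueField O) := by
  let b : Module.Basis (Fin 2) (ResidueField O) ρbar.V :=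
    Module.finBasisOfFinrankEq (ResidueField O) ρbar.V ρbar.finrank_eq
  obtain ⟨g, hg⟩ := exists_trace_ne_one_add_det (matRes ρbar b) (span_matrix_eq_top ρbar habs b)
  obtain ⟨L, hL, hL'⟩ := ρbar.factorsThroughFiniteLevel
  obtain ⟨ℓ, hℓ, hℓT, A, hA, σ, hσ, he⟩ :=
    Arith.Chebotarev.exists_frobenius_eq ρbar.ρ L hL' g (T ∪ S)
  rw [Finset.mem_union, not_or] at hℓT
  refine ⟨ℓ, hℓ, hℓT.1, fun h => hg ?_⟩
  have hc := hbar ℓ hℓ hℓT.2 A hA σ hσ
  rw [he, ← LinearMap.charpoly_toMatrix (ρbar.ρ g) b] at hc
  change (matRes ρbar b g).charpoly = _ at hc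
  rw [Matrix.charpoly_fin_two] at hc
  have h1 := congrArg (fun f => Polynomial.coeff f 1) hc
  have h0 := congrArg (fun f => Polynomial.coeff f 0) hc
  simp [Polynomial.coeff_X_pow] at h1 h0
  rw [h1, h0, h]

end Fermat.Agent.RT.Assembly
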