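import Fermat.Agent.RT.Assembly.Final
import Fermat.Agent.RT.Glue.Flat

/-!
# Flatness at `p` as the condition of the patching argument
-/

set_option autoImplicit false
set_option linter.style.haveILetI false

noncomputable section

namespace Fermat.Agent.RT.Assembly

open IsLocalRing Fermat.Agent.Deform
open Fermat.Agent.GaloisReps (HeckeGaloisModel ModelLevel)
open Fermat.Agent.FiniteFlat (GalOrder)

variable {O : Type} [CommRing O] [IsDomain O] [IsDiscreteValuationRing O]
  [IsAdicComplete (maximalIdeal O) O] [Finite (ResidueField O)] [CharZero O]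
  {p : ℕ} [Fact p.Prime] [CharP (ResidueField O) p]

omit [CharP (ResidueField O) p] in
/-- When `p` does not divide the level, the glued representations are flat at `p`. -/
theorem condAtPInput_flat (hp : (p : O) ∈ maximalIdeal O)
    (ρbar : ResidualGaloisRep (ResidueField O)) (abar : ℕ → ResidueField O)
    {D : ∀ (M : ℕ) [NeZero M], HeckeGaloisModel M p} {M₀ : ℕ} {S : Finset ℕ} (hpM : ¬ p ∣ M₀)
    (hpS : p ∈ S)
    (hX : ∀ (M : ℕ) [NeZero M] (N : ℕ), ¬ p ∣ M → Nonempty (GalOrder p (ModelLevel (D M) N))) :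
    CondAtPInput p ρbar abar D (fun _A _ _ _ ρ => ρ.IsFlatAt p) M₀ S := by
  intro L _ Δ _ _ ψ T H _ hΔ _ hL hS pt G _
  haveI := Glue.isLocalHom_algebraMap H hp hΔ
  refine G.isFlatAt hp hΔ fun M _ N hM => hX M N fun h => ?_
  have hpp : p.Prime := Fact.out
  exact (hL p hpp (hpp.dvd_of_dvd_pow (h.trans hM))).elim hpM (fun h => h hpS)

end Fermat.Agent.RT.Assembly
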