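import Fermat.Agent.RT.Assembly.Final
import Fermat.Agent.RT.Assembly.FlatInput
import Fermat.Agent.RT.Assembly.Eisenstein
import Fermat.Agent.RT.Assembly.SpecialGen
import Fermat.Agent.GaloisReps.Models

/-!
# Removing a prime at which Frobenius is scalar

The support statement followed by the removal of the auxiliary primes.
-/

set_option autoImplicit false
set_option linter.style.haveILetI false

noncomputable section

namespace Fermat.Agent.RT.Assembly

open IsLocalRing Fermat.Agent.Deform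
open Fermat.Agent.GaloisReps (HeckeGaloisModel ModelLevel)
open Fermat.Agent.FiniteFlat (GalOrder)
open scoped Classical

variable {O : Type} [CommRing O] [IsDomain O] [IsDiscreteValuationRing O]
  [IsAdicComplete (maximalIdeal O) O] [Finite (ResidueField O)] [CharZero O]
  {p : ℕ} [Fact p.Prime] [CharP (ResidueField O) p]
  {K : Type*} [NontriviallyNormedField K] [IsUltrametricDist K] [CompleteSpace K] [IsAlgClosed K]
  {ρbar : ResidualGaloisRep (ResidueField O)} {W : Rigid O} {abar : ℕ → ResidueField O}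
  {S : Finset ℕ} {M₀ : ℕ} {V : Finset ℕ} {D : ∀ (M : ℕ) [NeZero M], HeckeGaloisModel M p}
  {v₀ : ℕ}

omit [IsAdicComplete (maximalIdeal O) O] [Finite (ResidueField O)] [CharZero O] in
/-- The trace of a rigidified representation. -/
theorem trace_rb_eq (bb : Module.Basis (Fin 2) (ResidueField O) ρbar.V)
    (hW : W.rb = matRes ρbar bb) (σ : Arith.GQ) :
    (W.rb σ).trace = LinearMap.trace (ResidueField O) ρbar.V (ρbar.ρ σ) := by
  rw [hW, LinearMap.trace_eq_matrix_trace _ bb]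
  rfl

/-- **A prime of `V` can be removed from the level.** -/
theorem isCongruentLevel_div (φ : O →+* Germ.ball1 K) (hφinj : Function.Injective φ)
    (hφ : ∀ c ∈ maximalIdeal O, ‖(φ c : K)‖ < 1) (hp2 : p ≠ 2) (hp : (p : O) ∈ maximalIdeal O)
    {ζ : O} (hζ : IsPrimitiveRoot ζ p)
    (hset : PatchSetting p ρbar W abar S M₀ V) (hM : ModelInputs p D)
    {C : CondAt O} (hC : IsLocalCond ρbar C) (hCP : CondAtPInput p ρbar abar D C M₀ S)
    (hTW : TWSelmerInput p C W.rb M₀.primeFactors (uniPlaces p M₀ V) V S)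
    (hB : ∀ m, RankBoundInput p W abar M₀ S m)
    (hcong : IsCongruentLevel S abar M₀) (hv₀ : v₀ ∈ V) :
    IsCongruentLevel S abar (M₀ / v₀) := by
  obtain ⟨m, n, qv, hQ, hlev⟩ := exists_congruentLevel_div φ hφinj hφ hp2 hp hζ hset hM hC hCP hTW
    hB (exists_abar_ne_one_add hset.absIrr hset.charpolys) hcong hv₀
  obtain ⟨bb, hW⟩ := hset.rigid
  have hv := hset.V_prime _ hv₀
  have hd := hset.V_dvd _ hv₀
  have hM₀0 : M₀ ≠ 0 := hset.squarefree.ne_zero
  have : NeZero (M₀ / v₀) :=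
    ⟨(Nat.div_pos (Nat.le_of_dvd (Nat.pos_of_ne_zero hM₀0) hd) hv.pos).ne'⟩
  have hsq := squarefree_mul_prod hset.squarefree hset.primes_mem hQ
  have hdiv : M₀ * (∏ i, qv i) / v₀ = M₀ / v₀ * ∏ i, qv i := by
    rw [mul_comm (M₀ / v₀), ← Nat.mul_div_assoc _ hd, mul_comm]
  rw [hdiv] at hlev
  have hsq' : Squarefree (M₀ / v₀ * ∏ i, qv i) :=
    hsq.squarefree_of_dvd (Nat.mul_dvd_mul_right (Nat.div_dvd_of_dvd hd) _)
  have : NeZero (M₀ / v₀ * ∏ i, qv i) := ⟨hsq'.ne_zero⟩
  refine isCongruentLevel_of_regular hset.charpolys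
    (fun N p _ _ => GaloisReps.nonempty_heckeGaloisModel N p) D hM.special hsq' (fun q hq h => ?_)
    (fun q hq h => hset.primes_mem q hq (h.trans (Nat.div_dvd_of_dvd hd))) hset.p_mem
    (fun q hq => ?_) (fun q hq A hA σ hσ => ?_) hlev
  · rcases hq.dvd_mul.mp h with h | h
    · exact Or.inl h
    · obtain ⟨i, -, hi⟩ := (Prime.dvd_finsetProd_iff hq.prime _).mp h
      exact Or.inr (Finset.mem_image.mpr ⟨i, Finset.mem_univ i,
        ((Nat.prime_dvd_prime_iff_eq hq (hQ.prime i)).mp hi).symm⟩)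
  · obtain ⟨i, -, rfl⟩ := Finset.mem_image.mp hq
    exact hQ.notMem i
  · obtain ⟨i, -, rfl⟩ := Finset.mem_image.mp hq
    rw [← trace_rb_eq bb hW]
    exact hQ.regular i A hA σ hσ

/-- The same when `p` does not divide the level, with flatness at `p`. -/
theorem isCongruentLevel_div_flat (φ : O →+* Germ.ball1 K) (hφinj : Function.Injective φ)
    (hφ : ∀ c ∈ maximalIdeal O, ‖(φ c : K)‖ < 1) (hp2 : p ≠ 2) (hp : (p : O) ∈ maximalIdeal O)
    {ζ : O} (hζ : IsPrimitiveRoot ζ p)
    (hset : PatchSetting p ρbar W abar S M₀ V) (hM : ModelInputs p D) (hpM : ¬ p ∣ M₀)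
    (hX : ∀ (M : ℕ) [NeZero M] (N : ℕ), ¬ p ∣ M → Nonempty (GalOrder p (ModelLevel (D M) N)))
    (hTW : TWSelmerInput p (fun _A _ _ _ ρ => ρ.IsFlatAt p : CondAt O) W.rb M₀.primeFactors
      (uniPlaces p M₀ V) V S)
    (hB : ∀ m, RankBoundInput p W abar M₀ S m)
    (hcong : IsCongruentLevel S abar M₀) (hv₀ : v₀ ∈ V) :
    IsCongruentLevel S abar (M₀ / v₀) :=
  isCongruentLevel_div φ hφinj hφ hp2 hp hζ hset hM (isLocalCond_flat ρbar p)
    (condAtPInput_flat hp ρbar abar hpM hset.p_mem hX) hTW hB hcong hv₀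

end Fermat.Agent.RT.Assembly
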