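import Fermat.Agent.RT.Assembly.Selmer
import Fermat.Agent.RT.Assembly.Entries
import Fermat.Agent.RT.Glue.FlatDescent

/-!
# Normalised matrices of a lift, cyclotomic determinants in `O`, and the condition at `p`
-/

set_option autoImplicit false
set_option linter.style.haveILetI false

noncomputable section

namespace Fermat.Agent.RT.Assembly

open IsLocalRing Module Fermat.Agent.Deform Fermat.Agent.CFT.Tangent Fermat.Agent.Arith

variable {O : Type} [CommRing O] [IsDomain O] [IsDiscreteValuationRing O]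
  [IsAdicComplete (maximalIdeal O) O]

/-- The values of the cyclotomic character lie in `O`. -/
theorem exists_cycValue [CharZero O] {p : ℕ} [Fact p.Prime] (hp : (p : O) ∈ maximalIdeal O)
    (σ : Gal) : ∃ c : O, ∀ n a : ℕ, (∀ μ : QBar, μ ^ p ^ n = 1 → σ μ = μ ^ a) →
      c - a ∈ Ideal.span {((p ^ n : ℕ) : O)} := by
  have hpp : p.Prime := Fact.out
  have hex : ∀ n, ∃ a : ℕ, ∀ μ : QBar, μ ^ p ^ n = 1 → σ μ = μ ^ a := fun n =>
    haveI : NeZero (p ^ n) := ⟨pow_ne_zero n hpp.ne_zero⟩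
    exists_pow_eq_on_roots (p ^ n) σ
  choose a ha using hex
  have hcomp : ∀ {m n : ℕ} (b : ℕ), m ≤ n → (∀ μ : QBar, μ ^ p ^ m = 1 → σ μ = μ ^ b) →
      (a n : O) - b ∈ Ideal.span {((p ^ m : ℕ) : O)} := by
    intro m n b hmn hb
    haveI : NeZero (p ^ m) := ⟨pow_ne_zero m hpp.ne_zero⟩
    obtain ⟨ζ, hζ⟩ := HasEnoughRootsOfUnity.exists_primitiveRoot QBar (p ^ m)
    have h1 : ζ ^ a n = ζ ^ b := (ha n ζ (by
      obtain ⟨d, rfl⟩ := Nat.exists_eq_add_of_le hmn
      rw [pow_add, pow_mul, hζ.pow_eq_one, one_pow])).symm.trans (hb ζ hζ.pow_eq_one)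
    rw [(hζ.isOfFinOrder (pow_ne_zero m hpp.ne_zero)).pow_eq_pow_iff_modEq, ← hζ.eq_orderOf] at h1
    rw [Ideal.mem_span_singleton]
    have h2 : ((p ^ m : ℕ) : ℤ) ∣ (a n : ℤ) - b := Nat.modEq_iff_dvd.mp h1.symm
    simpa using map_dvd (Int.castRingHom O) h2
  obtain ⟨c, hc⟩ : ∃ c : O, ∀ n, SModEq (maximalIdeal O ^ n • (⊤ : Submodule O O)) (a n : O) c := by
    refine IsPrecomplete.prec inferInstance fun {m n} hmn => ?_
    rw [SModEq.sub_mem, smul_eq_mul, Ideal.mul_top, ← neg_sub]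
    refine neg_mem ((Ideal.span_singleton_le_iff_mem _).mpr ?_ (hcomp (a m) hmn (ha m)))
    push_cast
    exact Ideal.pow_mem_pow hp m
  refine ⟨c, fun n b hb => ?_⟩
  obtain ⟨ϖ, hϖ⟩ := IsDiscreteValuationRing.exists_irreducible O
  obtain ⟨e, u, he⟩ := IsDiscreteValuationRing.eq_unit_mul_pow_irreducible
    (show ((p ^ n : ℕ) : O) ≠ 0 from Nat.cast_ne_zero.mpr (pow_ne_zero n hpp.ne_zero)) hϖ
  have hle : maximalIdeal O ^ max n e ≤ Ideal.span {((p ^ n : ℕ) : O)} := by
    rw [hϖ.maximalIdeal_eq, Ideal.span_singleton_pow, Ideal.span_singleton_le_iff_mem,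
      Ideal.mem_span_singleton, he, Units.mul_left_dvd]
    exact pow_dvd_pow ϖ (le_max_right n e)
  have h1 := hc (max n e)
  rw [SModEq.sub_mem, smul_eq_mul, Ideal.mul_top] at h1
  have := sub_mem (hcomp b (le_max_left n e) hb) (hle h1)
  rwa [show (a (max n e) : O) - b - ((a (max n e) : O) - c) = c - b by ring] at this

variable {A : Type} [CommRing A] [IsLocalRing A] [Algebra O A]

/-- A cyclotomic determinant lies in `O`. -/
theorem det_mem_range [CharZero O] {p : ℕ} [Fact p.Prime] (hp : (p : O) ∈ maximalIdeal O)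
    [IsHausdorff (maximalIdeal A) A] {ρ : GaloisRepAdic A} (hdet : ρ.DetIsCyclotomic p) (σ : Gal) :
    LinearMap.det (ρ.ρ σ) ∈ Set.range (algebraMap O A) := by
  obtain ⟨c, hc⟩ := exists_cycValue hp σ
  refine ⟨c, sub_eq_zero.mp (IsHausdorff.haus' (I := maximalIdeal A) _ fun n => ?_)⟩
  rw [SModEq.zero, smul_eq_mul, Ideal.mul_top]
  have : NeZero (p ^ n) := ⟨pow_ne_zero n (Fact.out : p.Prime).ne_zero⟩
  obtain ⟨a, ha⟩ := exists_pow_eq_on_roots (p ^ n) σ
  have h1 := map_mem_span_natCast (algebraMap O A) (hc n a ha)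
  rw [map_sub, map_natCast] at h1
  have h2 := sub_mem h1 (hdet.2 n σ a ha)
  rw [sub_sub_sub_cancel_right] at h2
  refine (Ideal.span_singleton_le_iff_mem _).mpr ?_ h2
  push_cast
  exact Ideal.pow_mem_pow hdet.1 n

/-- A determinant in `O` which is cyclotomic in an extension is cyclotomic. -/
theorem detIsCyclotomic_of_injective [CharZero O] {p : ℕ} [Fact p.Prime]
    (hp : (p : O) ∈ maximalIdeal O) [IsLocalHom (algebraMap O A)] {B : Type} [CommRing B]
    [IsLocalRing B] [Algebra O B] [IsHausdorff (maximalIdeal B) B] (φ : A →ₐ[O] B)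
    (hφ : Function.Injective φ) (hφl : IsLocalHom (φ : A →+* B)) {ρ : GaloisRepAdic A}
    (hdet : (ρ.baseChangeAlong (φ : A →+* B) hφl).DetIsCyclotomic p)
    (hrange : ∀ σ, LinearMap.det (ρ.ρ σ) ∈ Set.range (algebraMap O A)) :
    ρ.DetIsCyclotomic p := by
  refine ⟨by rw [← map_natCast (algebraMap O A)]; exact map_nonunit (algebraMap O A) _ hp,
    fun n σ a ha => ?_⟩
  obtain ⟨d, hd⟩ := hrange σ
  obtain ⟨c, hc⟩ := exists_cycValue hp σ
  suffices algebraMap O A c = algebraMap O A d by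
    have h1 := map_mem_span_natCast (algebraMap O A) (hc n a ha)
    rwa [map_sub, map_natCast, this, hd] at h1
  refine hφ (sub_eq_zero.mp (IsHausdorff.haus' (I := maximalIdeal B) _ fun m => ?_))
  rw [SModEq.zero, smul_eq_mul, Ideal.mul_top]
  have : NeZero (p ^ m) := ⟨pow_ne_zero m (Fact.out : p.Prime).ne_zero⟩
  obtain ⟨b, hb⟩ := exists_pow_eq_on_roots (p ^ m) σ
  have h1 := map_mem_span_natCast (algebraMap O B) (hc m b hb)
  rw [map_sub, map_natCast, ← φ.commutes] at h1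
  have h2 := hdet.2 m σ b hb
  rw [det_baseChangeAlong, ← hd, RingHom.coe_coe] at h2
  have h3 := sub_mem h1 h2
  rw [sub_sub_sub_cancel_right] at h3
  refine (Ideal.span_singleton_le_iff_mem _).mpr ?_ h3
  push_cast
  exact Ideal.pow_mem_pow hdet.1 m

/-- Normalised matrices of a lift. -/
theorem exists_normalised {ρbar : ResidualGaloisRep (ResidueField O)} {W : Rigid O}
    {bb : Basis (Fin 2) (ResidueField O) ρbar.V} (hW : W.rb = matRes ρbar bb) (h : IsResAlg O A)
    [IsLocalHom (algebraMap O A)] [IsAdicComplete (maximalIdeal A) A] (ρ : GaloisRepAdic A)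
    (he : ρ.residual.IsEquiv (ρbar.baseChangeAlong (ResidueField.map (algebraMap O A)))) :
    ∃ (ru : Gal →* M2 A) (hc : IsCont ru), Lifts W h ru ∧ IsNormal W ru ∧
      ρ.IsEquiv (toRep ru hc) ∧
      (∀ σ, (ru σ).charpoly = LinearMap.charpoly (ρ.ρ σ)) ∧
      (∀ σ, (ru σ).trace = LinearMap.trace A ρ.V (ρ.ρ σ)) ∧
      (∀ σ, (ru σ).det = LinearMap.det (ρ.ρ σ)) := by
  obtain ⟨b, hb⟩ := exists_lifts_basis hW h ρ he
  obtain ⟨P, hl, hn⟩ := exists_normal hb
  refine ⟨conjM P (matOf ρ b), (isCont_matOf ρ b).conj P, hl, hn,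
    isEquiv_trans (isEquiv_toRep_matOf ρ b) (isEquiv_conj _ P), fun σ => ?_, fun σ => ?_,
    fun σ => ?_⟩
  · rw [conjM_apply, Matrix.coe_units_inv, Matrix.charpoly_units_conj', ← LinearMap.charpoly_toMatrix (ρ.ρ σ) b]
    rfl
  · rw [conjM_apply, Matrix.trace_units_conj', LinearMap.trace_eq_matrix_trace A b]
    rfl
  · rw [conjM_apply, Matrix.det_units_conj', ← LinearMap.det_toMatrix b]
    rfl

/-- Flatness does not depend on the representative of an isomorphism class. -/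
theorem isFlatAt_of_isEquiv {p : ℕ} {ρ ρ' : GaloisRepAdic A} (h : ρ.IsEquiv ρ')
    (hf : ρ.IsFlatAt p) : ρ'.IsFlatAt p := by
  obtain ⟨f⟩ := h
  refine ⟨hf.1, fun I hI => ?_⟩
  obtain ⟨H, i1, i2, h1, h2, h3, e, he, heσ⟩ := hf.2 I hI
  have hmap : (I • (⊤ : Submodule A ρ.V)).map (f.toLinearEquiv : ρ.V →ₗ[A] ρ'.V) =
      I • (⊤ : Submodule A ρ'.V) := by
    rw [Submodule.map_smul'', Submodule.map_top, LinearEquiv.range]
  let q := Submodule.Quotient.equiv _ _ f.toLinearEquiv hmap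
  refine ⟨H, i1, i2, h1, h2, h3, e.trans q.toEquiv, fun u v => ?_, fun σ u v huv => ?_⟩
  · show q (e (u * v)) = q (e u) + q (e v)
    rw [he, map_add]
  · show q (e v) = ρ'.levelAction I σ (q (e u))
    rw [heσ σ u v huv]
    obtain ⟨x, hx⟩ := Submodule.Quotient.mk_surjective _ (e u)
    rw [← hx]
    exact congrArg Submodule.Quotient.mk (f.map_apply σ x)

/-- A condition at `p` usable in the patching argument. -/
structure IsLocalCond (ρbar : ResidualGaloisRep (ResidueField O)) (C : CondAt O) : Prop where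
  of_isEquiv : ∀ ⦃A : Type⦄ [CommRing A] [IsLocalRing A] [Algebra O A] ⦃ρ ρ' : GaloisRepAdic A⦄,
    ρ.IsEquiv ρ' → C ρ → C ρ'
  baseChange : ∀ ⦃A B : Type⦄ [CommRing A] [IsLocalRing A] [Algebra O A] [CommRing B]
    [IsLocalRing B] [Algebra O B] (φ : A →ₐ[O] B) (hφ : IsLocalHom (φ : A →+* B))
    (ρ : GaloisRepAdic A), Function.Surjective φ → C ρ → C (ρ.baseChangeAlong (φ : A →+* B) hφ)
  descend : ∀ ⦃A B : Type⦄ [CommRing A] [IsLocalRing A] [Algebra O A] [Module.Finite O A]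
    [IsLocalHom (algebraMap O A)] [CommRing B]
    [IsLocalRing B] [Algebra O B] [Module.Finite O B] (φ : A →ₐ[O] B)
    (hφ : IsLocalHom (φ : A →+* B)) (ρ : GaloisRepAdic A), Function.Injective φ →
    ρ.residual.IsEquiv (ρbar.baseChangeAlong (ResidueField.map (algebraMap O A))) →
    C (ρ.baseChangeAlong (φ : A →+* B) hφ) → C ρ

/-- Flatness at `p` is such a condition. -/
theorem isLocalCond_flat (ρbar : ResidualGaloisRep (ResidueField O)) (p : ℕ) :
    IsLocalCond ρbar fun _A _ _ _ ρ => ρ.IsFlatAt p where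
  of_isEquiv := by
    intro A _ _ _ ρ ρ' h hf
    exact isFlatAt_of_isEquiv h hf
  baseChange := by
    intro A B _ _ _ _ _ _ φ hφ ρ hsurj h
    exact CFT.Tangent.IsFlatAt.baseChange (φ : A →+* B) hφ hsurj h
  descend := by
    intro A B _ _ _ _ _ _ _ _ _ φ hφ ρ hinj _ h
    haveI : IsNoetherianRing A := IsNoetherianRing.of_finite O A
    exact Glue.isFlatAt_of_baseChange (φ : A →+* B) hφ hinj
      (RingHom.Finite.of_comp_finite (f := algebraMap O A) (by
        rw [φ.comp_algebraMap]; exact RingHom.finite_algebraMap.mpr inferInstance)) ρ h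

/-- The tangent classes of a lift satisfying the condition are classes of that type. -/
theorem isTangentClass_of_cond [Finite (ResidueField O)]
    {ρbar : ResidualGaloisRep (ResidueField O)} {p : ℕ}
    {C : CondAt O} (hC : IsLocalCond ρbar C) {W : Rigid O} {h : IsResAlg O A}
    {ru : Gal →* M2 A} (hl : Lifts W h ru) (hc : IsCont ru) (hcond : C (toRep ru hc))
    (hdet : (toRep ru hc).DetIsCyclotomic p) {δ : tangentDer h} (hδ : δ ≠ 0) :
    IsTangentClass (fun _A _ _ _ ρ => C ρ ∧ ρ.DetIsCyclotomic p) W.rb (tangentCls W h ru δ) := by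
  letI := dualAlgebra O
  refine isTangentClass_of_matOf W.rb _ _
    (letI := (tangentHom h δ : A →+* DualNumber (ResidueField O)).toAlgebra;
      (Pi.basisFun A (Fin 2)).baseChange (DualNumber (ResidueField O)))
    ⟨hC.baseChange (tangentHom h δ) (isLocalHom_tangentHom δ) (toRep ru hc)
        (tangentHom_surjective h hδ) hcond,
      CFT.Tangent.DetIsCyclotomic.baseChange _ (isLocalHom_tangentHom δ) hdet⟩ fun σ => ?_
  refine (DFunLike.congr_fun (matOf_baseChangeAlong _ (isLocalHom_tangentHom δ) (toRep ru hc)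
    (Pi.basisFun A (Fin 2))) σ).trans ?_
  rw [matOf_toRep]
  exact mapM_tangentHom hl δ σ

end Fermat.Agent.RT.Assembly
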