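import Fermat.Agent.RT.Assembly.Tangent
import Fermat.Agent.CFT.Tangent.Classes

/-!
# The Selmer bound the patching argument asks for, and the bound it gives on the coordinates

`TWSelmerInput` is the form in which Taylor–Wiles primes enter. `finrank_killedDer_le` says that
the derivations killing the coordinates at the places of `V` give such Selmer classes.
-/

set_option autoImplicit false
set_option linter.style.haveILetI false

noncomputable section

namespace Fermat.Agent.RT.Assembly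

open IsLocalRing Module Fermat.Agent.Deform Fermat.Agent.CFT.Tangent Fermat.Agent.Arith

/-- A predicate on representations over coefficient algebras. -/
abbrev CondAt (O : Type) [CommRing O] :=
  ∀ ⦃A : Type⦄ [CommRing A] [IsLocalRing A] [Algebra O A], GaloisRepAdic A → Prop

variable {O : Type} [CommRing O] [IsDomain O] [IsDiscreteValuationRing O]
  [IsAdicComplete (maximalIdeal O) O]

/-- A class unramified outside `T ∪ {p}`, with trace zero against inertia at `U`, trivial on the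
decomposition groups at `V`, and of the type `C` at `p`. -/
structure IsSelmerClass (p : ℕ) (C : CondAt O) (r : Gal →* M2 (ResidueField O))
    (T U V : Finset ℕ) (b : Gal → M2 (ResidueField O)) : Prop where
  cocycle : IsAdCocycle r b
  level : IsFiniteLevel b
  trace : ∀ σ, (b σ).trace = 0
  unramified : ∀ ℓ : ℕ, ℓ.Prime → ℓ ≠ p → ℓ ∉ T → ∀ A : ValuationSubring QBar, A.LiesOverPrime ℓ →
    ∀ τ ∈ A.inertiaSubgroupIn ℚ, b τ = 0
  unipotent : ∀ q ∈ U, ∀ A : ValuationSubring QBar, A.LiesOverPrime q →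
    ∀ τ ∈ A.inertiaSubgroupIn ℚ, (b τ * r τ).trace = 0
  decomposition : ∀ (v : ℕ) [Fact v.Prime], v ∈ V →
    ∀ g ∈ (padicPlace v).decompositionSubgroup ℚ, b g = 0
  atP : b ≠ 0 → IsTangentClass (fun _A _ _ _ ρ => C ρ ∧ ρ.DetIsCyclotomic p) r b

/-- Taylor–Wiles primes for one depth. -/
structure IsTWSet (p : ℕ) {k : Type} [Field k] (r : Gal →* M2 k) (S : Finset ℕ) (n : ℕ) {m : ℕ}
    (qv : Fin m → ℕ) : Prop where
  injective : Function.Injective qv
  prime : ∀ i, (qv i).Prime
  notMem : ∀ i, qv i ∉ S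
  ne_p : ∀ i, qv i ≠ p
  dvd : ∀ i, p ^ (n + 1) ∣ qv i - 1
  regular : ∀ i, ∀ A : ValuationSubring QBar, A.LiesOverPrime (qv i) → ∀ φ : Gal,
    A.IsFrobeniusAt φ (qv i) → (r φ).trace ^ 2 ≠ ((qv i : k) + 1) ^ 2

/-- Taylor–Wiles primes with the Selmer bound: the classes trivial at `V` form a space of dimension
at most `g`, where the number of primes is `3 |V| + g`. -/
def TWSelmerInput [Finite (ResidueField O)] (p : ℕ) (C : CondAt O)
    (r : Gal →* M2 (ResidueField O)) (T U V S : Finset ℕ) : Prop :=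
  ∃ m g : ℕ, m = 3 * V.card + g ∧ ∀ n : ℕ, ∃ qv : Fin m → ℕ, IsTWSet p r S n qv ∧
    ∀ Z : Submodule (ResidueField O) (Gal → M2 (ResidueField O)),
      Module.Finite (ResidueField O) Z →
      (∀ b ∈ Z, IsSelmerClass p C r (T ∪ Finset.univ.image qv) U V b) →
      (∀ b ∈ Z, ∀ X, b = cobdLin r X → b = 0) →
      finrank (ResidueField O) Z ≤ g

variable {R : Type} [CommRing R] [IsLocalRing R] [Algebra O R]
variable {W : Rigid O} {h : IsResAlg O R} {ru : Gal →* M2 R}

omit [IsAdicComplete (maximalIdeal O) O] in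
/-- A derivation kills the image of `O`. -/
theorem tangentDer_algebraMap (δ : tangentDer h) {a : R} (ha : a ∈ Set.range (algebraMap O R)) :
    δ.1 a = 0 := by
  obtain ⟨o, rfl⟩ := ha
  exact δ.2.2.2 o

/-- **The bound on the killed derivations.** -/
theorem finrank_killedDer_le [Finite (ResidueField O)] {p : ℕ} [Fact p.Prime]
    [CharP (ResidueField O) p] (hp2 : p ≠ 2) (C : CondAt O) {T U V : Finset ℕ}
    (hl : Lifts W h ru) (hn : IsNormal W ru) (hc : IsCont ru)
    (hgen : Algebra.adjoin O (entries ru) = ⊤)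
    (hdetO : ∀ σ, (ru σ).det ∈ Set.range (algebraMap O R))
    (hdet : (toRep ru hc).DetIsCyclotomic p)
    (hC : ∀ δ : tangentDer h, δ ≠ 0 →
      IsTangentClass (fun _A _ _ _ ρ => C ρ ∧ ρ.DetIsCyclotomic p) W.rb (tangentCls W h ru δ))
    (hunr : ∀ ℓ : ℕ, ℓ.Prime → ℓ ≠ p → ℓ ∉ T → ∀ A : ValuationSubring QBar, A.LiesOverPrime ℓ →
      ∀ τ ∈ A.inertiaSubgroupIn ℚ, ru τ = 1)
    (huni : ∀ q ∈ U, ∀ A : ValuationSubring QBar, A.LiesOverPrime q →
      ∀ τ ∈ A.inertiaSubgroupIn ℚ, (ru τ).trace ∈ Set.range (algebraMap O R))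
    {ι : Type} (vT : ι → ℕ) [hv : ∀ i, Fact (vT i).Prime] (hV : ∀ v ∈ V, ∃ i, vT i = v)
    (hvp : ∀ i, vT i ≠ p)
    (hinert : ∀ i, ∀ g ∈ (padicPlace (vT i)).inertiaSubgroupIn ℚ, W.rb g = 1)
    (σT φT : ι → Gal) (hσ : ∀ i, σT i ∈ (padicPlace (vT i)).inertiaSubgroupIn ℚ)
    (hφ : ∀ i, (padicPlace (vT i)).IsFrobeniusAt (φT i) (vT i))
    (hφs : ∀ i, ∃ e, ∀ a b, augment h (ru (φT i) a b) = if a = b then e else 0)
    (π : ι → QBar) (hπ : ∀ i, π i ≠ 0) (mπ : ι → ℤ)
    (hπord : ∀ i, Mazur.Eisenstein.ordAt (padicPlace (vT i)) (vT i) (π i) = mπ i / p)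
    (hπσ : ∀ i, EC.Reduction.res (padicPlace (vT i)) (σT i (π i) / π i) ≠ 1)
    (hπσp : ∀ i, EC.Reduction.res (padicPlace (vT i)) (σT i (π i) / π i) ^ p = 1)
    {c : R} (hc2 : 2 * c = 1) {g : ℕ}
    (hbound : ∀ Z : Submodule (ResidueField O) (Gal → M2 (ResidueField O)),
      Module.Finite (ResidueField O) Z →
      (∀ b ∈ Z, IsSelmerClass p C W.rb T U V b) →
      (∀ b ∈ Z, ∀ X, b = cobdLin W.rb X → b = 0) → finrank (ResidueField O) Z ≤ g)
    [Module.Finite (ResidueField O) (tangentDer h)] :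
    finrank (ResidueField O) (killedDer h
      (fun x : ι × Fin 2 × Fin 3 =>
        tlCoord c (if x.2.1 = 0 then ru (σT x.1) else ru (φT x.1)) x.2.2)) ≤ g := by
  have h2 : (2 : ResidueField O) ≠ 0 := Ring.two_ne_zero (by
    rw [ringChar.eq (ResidueField O) p]; exact hp2)
  set K := killedDer h
    (fun x : ι × Fin 2 × Fin 3 =>
      tlCoord c (if x.2.1 = 0 then ru (σT x.1) else ru (φT x.1)) x.2.2) with hK
  let F : K →ₗ[ResidueField O] (Gal → M2 (ResidueField O)) := (tangentCls W h ru).comp K.subtype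
  have hinj : ∀ (δ : K) X, F δ = cobdLin W.rb X → δ = 0 := fun δ X hX =>
    Subtype.ext (eq_zero_of_tangentCls_eq_cobdLin hl hn hgen δ.1 hX)
  have hF : Function.Injective F := (injective_iff_map_eq_zero _).mpr fun δ hδ =>
    hinj δ 0 (by rw [hδ, map_zero])
  rw [← LinearMap.finrank_range_of_inj hF]
  refine hbound _ inferInstance ?_ ?_
  · rintro _ ⟨⟨δ, hδ⟩, rfl⟩
    have hcoc : IsAdCocycle W.rb (tangentCls W h ru δ) := tangentCls_mul hl δ
    have hlev : IsFiniteLevel (tangentCls W h ru δ) := tangentCls_finiteLevel hc δ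
    refine ⟨hcoc, hlev, fun σ => trace_tangentCls p hl hc hdet δ σ,
      fun ℓ hℓ hℓp hℓT A hA τ hτ => tangentCls_eq_zero_of_eq_one δ (hunr ℓ hℓ hℓp hℓT A hA τ hτ),
      fun q hq A hA τ hτ => ?_, fun v _ hvV g hg => ?_, fun hne => ?_⟩
    · show (tangentCls W h ru δ τ * W.rb τ).trace = 0
      rw [trace_tangentCls_mul_rb]
      exact tangentDer_algebraMap δ (huni q hq A hA τ hτ)
    · obtain ⟨i, rfl⟩ := hV v hvV
      have hz : ∀ (X : M2 R) (e : ResidueField O), e ≠ 0 →
          (∀ a b, augment h (X a b) = if a = b then e else 0) →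
          (∀ l, δ.1 (tlCoord c X l) = 0) → X.det ∈ Set.range (algebraMap O R) →
          ∀ a b, δ.1 (X a b) = 0 := fun X e he hX h0 hd =>
        eq_zero_of_tlCoord h2 hc2 δ he hX h0 (tangentDer_algebraMap δ hd)
      refine eq_zero_on_decomposition (hr := ?_) hcoc hlev (hvp i) (hinert i) (hσ i) (hπ i)
        (hπord i) (hπσ i) (hπσp i) ?_ (hφ i) ?_ hg
      · obtain ⟨L, hL, hL'⟩ := hc 1
        refine ⟨L, hL, fun σ hσ => Matrix.ext fun a b => ?_⟩
        have h1 := (augment_eq_zero_iff h _).mpr (by simpa using hL' σ hσ a b)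
        rw [map_sub, sub_eq_zero, hl] at h1
        rw [h1]
        rcases eq_or_ne a b with rfl | hab
        · rw [Matrix.one_apply_eq, Matrix.one_apply_eq, map_one]
        · rw [Matrix.one_apply_ne hab, Matrix.one_apply_ne hab, map_zero]
      · refine tangentCls_eq_zero δ (hz _ 1 one_ne_zero (fun a b => ?_)
          (fun l => by simpa using hδ (i, 0, l)) (hdetO _))
        rw [hl, hinert i _ (hσ i), Matrix.one_apply]
      · obtain ⟨e, he⟩ := hφs i
        have he0 : e ≠ 0 := fun e0 => by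
          have h1 : W.rb (φT i) * W.rb (φT i)⁻¹ = 1 := by rw [← map_mul, mul_inv_cancel, map_one]
          have h0 : W.rb (φT i) = 0 := Matrix.ext fun a b => by
            rw [← hl, he, e0, ite_self, Matrix.zero_apply]
          rw [h0, zero_mul] at h1
          exact zero_ne_one h1
        exact tangentCls_eq_zero δ (hz _ e he0 he (fun l => by simpa using hδ (i, 1, l)) (hdetO _))
    · have hδ0 : δ ≠ 0 := fun e => hne (by
        show tangentCls W h ru δ = 0
        rw [e, map_zero])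
      exact hC δ hδ0
  · rintro _ ⟨δ, rfl⟩ X hX
    rw [hinj δ X hX, map_zero]

end Fermat.Agent.RT.Assembly
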